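/-
S35 geometry, leaf (N1) (helper57): the norm formula in the two-extension setting.

`L / K` of degree `q + 1`, `V` a discrete valuation subring of `K` of residue characteristic
`q`, `O₁ ≠ O₂` the two valuation subrings of `L` over `V` (`f(O₁ | V) = 1`, `f(O₂ | V) = q`,
purely inseparable).  For `u ∈ O₁ ∩ O₂`:

  `N_{L/K}(u) ≡ v₁ · v₂  (mod m_V)`,   where `u ≡ v₁ (mod m₁)` and `u ^ q ≡ v₂ (mod m₂)`.

Proof: the explicit `V`-basis `W = {y'^i θ (i < q), 1 - θ}` of `O₁ ∩ O₂`
(`Fermat.Agent.S34.H57.exists_core`); the matrix of multiplication by `u` in `W` is block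
diagonal modulo `m_V`, with blocks `C` (`u y^j ≡ ∑ C_ij y^i` mod `m₂`) and `v₁`; and
`C ^ q ≡ v₂ • 1`, so `det C ≡ v₂` because the Frobenius of the residue field is injective.
-/
import Mathlib
import Fermat.Agent.S34.H57.TwoExt

set_option autoImplicit false

namespace Fermat.Agent.S35.H57

open Polynomial
open Fermat.Agent.S34.H57

universe u v

section Basis

variable {K : Type u} {L : Type v} [Field K] [Field L] [Algebra K L]
variable {V : ValuationSubring K}

/-- Every element of `L` has a nonzero `K`-multiple in `O₁ ∩ O₂`. -/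
lemma exists_mul_mem [FiniteDimensional K L] {O₁ O₂ : ValuationSubring L}
    (h₁ : O₁.comap (algebraMap K L) = V) (h₂ : O₂.comap (algebraMap K L) = V) (x : L) :
    ∃ s : K, s ≠ 0 ∧ algebraMap K L s * x ∈ O₁ ∧ algebraMap K L s * x ∈ O₂ := by
  have halg : IsAlgebraic V x :=
    (IsFractionRing.isAlgebraic_iff V K L).2 (Algebra.IsAlgebraic.isAlgebraic x)
  obtain ⟨a, ha0, hint⟩ := halg.exists_integral_multiple
  have e : a • x = algebraMap K L (a : K) * x := by
    rw [Algebra.smul_def]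
    rfl
  rw [e] at hint
  exact ⟨(a : K), fun h => ha0 (Subtype.ext h), mem_of_isIntegral h₁ hint,
    mem_of_isIntegral h₂ hint⟩

/-- The core with the basis exported: `W` is a `K`-basis of `L` and the coordinates of the
elements of `O₁ ∩ O₂` lie in `V`. -/
theorem exists_basis [FiniteDimensional K L] {O₁ O₂ : ValuationSubring L}
    (h₁ : O₁.comap (algebraMap K L) = V) (h₂ : O₂.comap (algebraMap K L) = V) (hne : O₁ ≠ O₂)
    {π : K} (hπ0 : π ≠ 0) (hπV : π ∈ V.nonunits) (hπ : ∀ a ∈ V.nonunits, a / π ∈ V)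
    {q : ℕ} (hq : q.Prime) (hqV : (q : K) ∈ V.nonunits) (hfin : Module.finrank K L = q + 1)
    {y : L} (hy : y ∈ O₂) {v : K} (hv : v ∈ V) (hyv : y ^ q - algebraMap K L v ∈ O₂.nonunits)
    (hyn : ∀ w ∈ V, y - algebraMap K L w ∉ O₂.nonunits) :
    ∃ (θ y' : L) (b : Module.Basis (Option (Fin q)) K L),
      O₁.valuation θ ≤ O₁.valuation (algebraMap K L π) ∧
      O₂.valuation (θ - 1) ≤ O₂.valuation (algebraMap K L π) ∧
      y' ∈ O₁ ∧ y' ∈ O₂ ∧ O₂.valuation (y' - y) < 1 ∧ ⇑b = fam θ y' q ∧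
      ∀ x : L, x ∈ O₁ → x ∈ O₂ → ∀ o, b.repr x o ∈ V := by
  classical
  obtain ⟨θ, y', hθ1, hθ2, hy'1, hy'2, hyy, hexp⟩ :=
    exists_core h₁ h₂ hne hπ0 hπV hπ hq hqV hfin hy hv hyv hyn
  have hspan : ⊤ ≤ Submodule.span K (Set.range (fam θ y' q)) := by
    intro x _
    obtain ⟨s, hs0, hs1, hs2⟩ := exists_mul_mem h₁ h₂ x
    obtain ⟨c, d, hc, hd, hx⟩ := hexp _ hs1 hs2
    have hmem : algebraMap K L s * x ∈ Submodule.span K (Set.range (fam θ y' q)) := by
      have e2 : comb θ y' c d = ∑ o : Option (Fin q), (o.elim d c : K) • fam θ y' q o :=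
        (sum_smul_fam θ y' (fun o : Option (Fin q) => o.elim d c)).symm
      rw [hx, e2]
      exact Submodule.sum_mem _ fun o _ =>
        Submodule.smul_mem _ _ (Submodule.subset_span ⟨o, rfl⟩)
    have e : x = s⁻¹ • (algebraMap K L s * x) := by
      rw [Algebra.smul_def, ← mul_assoc, ← map_mul, inv_mul_cancel₀ hs0, map_one, one_mul]
    rw [e]
    exact Submodule.smul_mem _ _ hmem
  have hcard : Fintype.card (Option (Fin q)) = Module.finrank K L := by
    rw [Fintype.card_option, Fintype.card_fin, hfin]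
  refine ⟨θ, y', basisOfTopLeSpanOfCardEqFinrank (fam θ y' q) hspan hcard, hθ1, hθ2, hy'1, hy'2,
    hyy, coe_basisOfTopLeSpanOfCardEqFinrank _ _ _, ?_⟩
  intro x hx1 hx2 o
  obtain ⟨c, d, hc, hd, hx⟩ := hexp x hx1 hx2
  set b := basisOfTopLeSpanOfCardEqFinrank (fam θ y' q) hspan hcard with hb
  have hbcoe : ⇑b = fam θ y' q := coe_basisOfTopLeSpanOfCardEqFinrank _ _ _
  have hx' : x = ∑ o : Option (Fin q), (o.elim d c : K) • b o := by
    rw [hbcoe]
    exact hx.trans (sum_smul_fam θ y' (fun o : Option (Fin q) => o.elim d c)).symm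
  have hrepr : ⇑(b.repr x) = fun o : Option (Fin q) => (o.elim d c : K) := by
    rw [hx']
    exact b.repr_sum_self _
  rw [hrepr]
  cases o with
  | none => exact hd
  | some i => exact hc i

end Basis

section MatrixLocal

/-- The Frobenius of a field of characteristic `q` is injective. -/
lemma eq_of_pow_eq_pow_char {κ : Type*} [Field κ] {q : ℕ} (hq : q.Prime) (hq0 : (q : κ) = 0)
    {a b : κ} (h : a ^ q = b ^ q) : a = b := by
  have : Fact q.Prime := ⟨hq⟩
  have : CharP κ q := (CharP.charP_iff_prime_eq_zero hq).2 hq0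
  have h0 : (a - b) ^ q = 0 := by rw [sub_pow_char, h, sub_self]
  exact sub_eq_zero.1 (pow_eq_zero_iff hq.ne_zero |>.1 h0)

variable {R : Type*} [CommRing R] [IsLocalRing R]

/-- The determinant of a matrix over a local ring of residue characteristic `q` which is block
diagonal modulo the maximal ideal, with a `1 × 1` block `a₁` and a `q × q` block `C` such that
`C ^ q ≡ a₂ • 1`, is congruent to `a₁ * a₂`. -/
lemma det_sub_mem {q : ℕ} (hq : q.Prime) (hqR : (q : R) ∈ IsLocalRing.maximalIdeal R)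
    (M : Matrix (Option (Fin q)) (Option (Fin q)) R) (a₁ a₂ : R)
    (h1 : ∀ i, M (some i) none ∈ IsLocalRing.maximalIdeal R)
    (h2 : M none none - a₁ ∈ IsLocalRing.maximalIdeal R)
    (h3 : ∀ j, M none (some j) ∈ IsLocalRing.maximalIdeal R)
    (h4 : ∀ i j, ((Matrix.of fun i j : Fin q => M (some i) (some j)) ^ q) i j -
      (if i = j then a₂ else 0) ∈ IsLocalRing.maximalIdeal R) :
    M.det - a₁ * a₂ ∈ IsLocalRing.maximalIdeal R := by
  classical
  set res := IsLocalRing.residue R with hres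
  set C : Matrix (Fin q) (Fin q) R := Matrix.of fun i j : Fin q => M (some i) (some j) with hC
  have hres0 : ∀ {x : R}, x ∈ IsLocalRing.maximalIdeal R → res x = 0 := fun h =>
    (IsLocalRing.residue_eq_zero_iff _).2 h
  have hq0 : (q : IsLocalRing.ResidueField R) = 0 := by
    have := hres0 hqR
    rwa [map_natCast] at this
  have hCq : (res.mapMatrix C) ^ q = res a₂ • (1 : Matrix (Fin q) (Fin q) _) := by
    rw [← map_pow]
    ext i j
    have := hres0 (h4 i j)
    rw [map_sub, sub_eq_zero] at this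
    rw [RingHom.mapMatrix_apply, Matrix.map_apply, this, Matrix.smul_apply, Matrix.one_apply]
    split_ifs <;> simp
  have hdetC : (res.mapMatrix C).det = res a₂ := by
    apply eq_of_pow_eq_pow_char hq hq0
    rw [← Matrix.det_pow, hCq, Matrix.det_smul, Matrix.det_one, mul_one, Fintype.card_fin]
  have hblock : Matrix.reindex (Equiv.optionEquivSumPUnit.{0} (Fin q))
      (Equiv.optionEquivSumPUnit.{0} (Fin q)) (res.mapMatrix M) =
      Matrix.fromBlocks (res.mapMatrix C) 0 0 (Matrix.of fun _ _ : PUnit.{1} => res a₁) := by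
    ext (i | i) (j | j)
    · simp [C]
    · simp only [Matrix.reindex_apply, Matrix.submatrix_apply, Equiv.optionEquivSumPUnit_symm_inl,
        Equiv.optionEquivSumPUnit_symm_inr, RingHom.mapMatrix_apply, Matrix.map_apply,
        Matrix.fromBlocks_apply₁₂, Matrix.zero_apply]
      exact hres0 (h1 i)
    · simp only [Matrix.reindex_apply, Matrix.submatrix_apply, Equiv.optionEquivSumPUnit_symm_inl,
        Equiv.optionEquivSumPUnit_symm_inr, RingHom.mapMatrix_apply, Matrix.map_apply,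
        Matrix.fromBlocks_apply₂₁, Matrix.zero_apply]
      exact hres0 (h3 j)
    · simp only [Matrix.reindex_apply, Matrix.submatrix_apply,
        Equiv.optionEquivSumPUnit_symm_inr, RingHom.mapMatrix_apply, Matrix.map_apply,
        Matrix.fromBlocks_apply₂₂, Matrix.of_apply]
      have := hres0 h2
      rwa [map_sub, sub_eq_zero] at this
  have hdet : res M.det = res a₂ * res a₁ := by
    rw [RingHom.map_det, ← Matrix.det_reindex_self (Equiv.optionEquivSumPUnit.{0} (Fin q)), hblock,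
      Matrix.det_fromBlocks_zero₂₁, hdetC, Matrix.det_unique]
    rfl
  rw [← IsLocalRing.residue_eq_zero_iff, map_sub, map_mul, ← hres, hdet, mul_comm, sub_self]

end MatrixLocal

section Cong

variable {K : Type u} {L : Type v} [Field K] [Field L] [Algebra K L]
variable {V : ValuationSubring K}

/-- The expansion of an element in the family `W`, read off the basis. -/
lemma eq_comb_repr {q : ℕ} {θ y' : L} (b : Module.Basis (Option (Fin q)) K L)
    (hb : ⇑b = fam θ y' q) (x : L) :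
    x = comb θ y' (fun i => b.repr x (some i)) (b.repr x none) := by
  have e := sum_smul_fam θ y' (fun o : Option (Fin q) => b.repr x o)
  rw [← hb, b.sum_repr x] at e
  exact e

/-- If multiplication by `u` has matrix `C` on `1, y, …, y^(q-1)` modulo the maximal ideal of
`O₂`, then multiplication by `u ^ n` has matrix `C ^ n`. -/
lemma val_pow_mul_sub_lt_one {O₂ : ValuationSubring L} (h₂ : O₂.comap (algebraMap K L) = V)
    {q : ℕ} {y u : L} (hu : u ∈ O₂) (C : Matrix (Fin q) (Fin q) V)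
    (hC : ∀ j : Fin q, O₂.valuation (u * y ^ (j : ℕ) -
      ∑ i : Fin q, algebraMap K L (C i j : K) * y ^ (i : ℕ)) < 1) (n : ℕ) (j : Fin q) :
    O₂.valuation (u ^ n * y ^ (j : ℕ) -
      ∑ i : Fin q, algebraMap K L ((C ^ n) i j : K) * y ^ (i : ℕ)) < 1 := by
  classical
  induction n generalizing j with
  | zero =>
    have e : ∑ i : Fin q, algebraMap K L (((C ^ 0) i j : V) : K) * y ^ (i : ℕ) = y ^ (j : ℕ) := by
      rw [pow_zero]
      rw [Finset.sum_eq_single j]
      · rw [Matrix.one_apply_eq]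
        simp
      · intro i _ hij
        rw [Matrix.one_apply_ne hij]
        simp
      · intro h
        exact absurd (Finset.mem_univ j) h
    rw [e, pow_zero, one_mul, sub_self, map_zero]
    exact zero_lt_one
  | succ n ih =>
    have key : ∑ k : Fin q, algebraMap K L (((C ^ (n + 1)) k j : V) : K) * y ^ (k : ℕ) =
        ∑ i : Fin q, algebraMap K L (((C ^ n) i j : V) : K) *
          ∑ k : Fin q, algebraMap K L ((C k i : V) : K) * y ^ (k : ℕ) := by
      rw [pow_succ']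
      simp only [Matrix.mul_apply, AddSubmonoidClass.coe_finsetSum, MulMemClass.coe_mul, map_sum,
        map_mul, Finset.sum_mul, Finset.mul_sum]
      rw [Finset.sum_comm]
      exact Finset.sum_congr rfl fun i _ => Finset.sum_congr rfl fun k _ => by ring
    have e3 : ∑ i : Fin q, algebraMap K L (((C ^ n) i j : V) : K) *
        (u * y ^ (i : ℕ) - ∑ k : Fin q, algebraMap K L ((C k i : V) : K) * y ^ (k : ℕ)) =
        u * ∑ i : Fin q, algebraMap K L (((C ^ n) i j : V) : K) * y ^ (i : ℕ) -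
        ∑ i : Fin q, algebraMap K L (((C ^ n) i j : V) : K) *
          ∑ k : Fin q, algebraMap K L ((C k i : V) : K) * y ^ (k : ℕ) := by
      simp only [mul_sub, Finset.sum_sub_distrib, Finset.mul_sum]
      congr 1
      exact Finset.sum_congr rfl fun i _ => by ring
    have e : u ^ (n + 1) * y ^ (j : ℕ) -
        ∑ k : Fin q, algebraMap K L (((C ^ (n + 1)) k j : V) : K) * y ^ (k : ℕ) =
        u * (u ^ n * y ^ (j : ℕ) -
          ∑ i : Fin q, algebraMap K L (((C ^ n) i j : V) : K) * y ^ (i : ℕ)) +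
        ∑ i : Fin q, algebraMap K L (((C ^ n) i j : V) : K) *
          (u * y ^ (i : ℕ) - ∑ k : Fin q, algebraMap K L ((C k i : V) : K) * y ^ (k : ℕ)) := by
      rw [key, e3]
      ring
    rw [e]
    refine Valuation.map_add_lt _ (val_mul_lt_one O₂ ((O₂.valuation_le_one_iff _).2 hu) (ih j))
      (Valuation.map_sum_lt _ one_ne_zero fun i _ => ?_)
    exact val_mul_lt_one O₂
      ((O₂.valuation_le_one_iff _).2 ((algebraMap_mem_iff h₂ _).2 ((C ^ n) i j).2)) (hC i)

end Cong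

section Norm

variable {K : Type u} {L : Type v} [Field K] [Field L] [Algebra K L]
variable {V : ValuationSubring K}

/-- The norm formula relative to a basis `W` as produced by `exists_basis`. -/
theorem norm_sub_mem_of_basis {O₁ O₂ : ValuationSubring L}
    (h₁ : O₁.comap (algebraMap K L) = V) (h₂ : O₂.comap (algebraMap K L) = V)
    {q : ℕ} (hq : q.Prime) (hqV : (q : K) ∈ V.nonunits)
    {y : L} (hy : y ∈ O₂) {v : K} (hv : v ∈ V) (hyv : y ^ q - algebraMap K L v ∈ O₂.nonunits)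
    (hyn : ∀ w ∈ V, y - algebraMap K L w ∉ O₂.nonunits)
    {θ y' : L} (hθ1 : O₁.valuation θ < 1) (hθ2 : O₂.valuation (θ - 1) < 1)
    (hy'1 : y' ∈ O₁) (hy'2 : y' ∈ O₂) (hyy : O₂.valuation (y' - y) < 1)
    (b : Module.Basis (Option (Fin q)) K L) (hb : ⇑b = fam θ y' q)
    (hcoord : ∀ x : L, x ∈ O₁ → x ∈ O₂ → ∀ o, b.repr x o ∈ V)
    {u : L} (hu₁ : u ∈ O₁) (hu₂ : u ∈ O₂) {v₁ v₂ : K} (hv₁ : v₁ ∈ V) (hv₂ : v₂ ∈ V)
    (h1 : u - algebraMap K L v₁ ∈ O₁.nonunits) (h2 : u ^ q - algebraMap K L v₂ ∈ O₂.nonunits) :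
    Algebra.norm K u ∈ V ∧ Algebra.norm K u - v₁ * v₂ ∈ V.nonunits := by
  classical
  rw [ValuationSubring.mem_nonunits_iff] at h1 h2
  have hθm1 : θ ∈ O₁ := (O₁.valuation_le_one_iff _).1 hθ1.le
  have hθm2 : θ ∈ O₂ := by
    have h : θ - 1 ∈ O₂ := (O₂.valuation_le_one_iff _).1 hθ2.le
    have h' := add_mem h O₂.one_mem
    rwa [sub_add_cancel] at h'
  have he2 : O₂.valuation (1 - θ) < 1 := by
    rw [Valuation.map_sub_swap]
    exact hθ2
  have hbnone : b none = 1 - θ := by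
    rw [hb]
    rfl
  have hbsome : ∀ j : Fin q, b (some j) = y' ^ (j : ℕ) * θ := fun j => by
    rw [hb]
    rfl
  have hbm1 : ∀ o, b o ∈ O₁ := by
    intro o
    cases o with
    | none =>
      rw [hbnone]
      exact sub_mem O₁.one_mem hθm1
    | some j =>
      rw [hbsome]
      exact mul_mem (pow_mem hy'1 _) hθm1
  have hbm2 : ∀ o, b o ∈ O₂ := by
    intro o
    cases o with
    | none =>
      rw [hbnone]
      exact sub_mem O₂.one_mem hθm2
    | some j =>
      rw [hbsome]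
      exact mul_mem (pow_mem hy'2 _) hθm2
  have hx1 : ∀ o, u * b o ∈ O₁ := fun o => mul_mem hu₁ (hbm1 o)
  have hx2 : ∀ o, u * b o ∈ O₂ := fun o => mul_mem hu₂ (hbm2 o)
  -- the matrix of multiplication by `u`, over `V`
  let MV : Matrix (Option (Fin q)) (Option (Fin q)) V :=
    Matrix.of fun i j => ⟨b.repr (u * b j) i, hcoord _ (hx1 j) (hx2 j) i⟩
  have hMVcoe : ∀ i j, ((MV i j : V) : K) = b.repr (u * b j) i := fun i j => rfl
  have hM : Algebra.leftMulMatrix b u = V.subtype.mapMatrix MV := by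
    ext i j
    rw [Algebra.leftMulMatrix_eq_repr_mul]
    rfl
  have hnorm : Algebra.norm K u = ((MV.det : V) : K) := by
    rw [Algebra.norm_eq_matrix_det b, hM, ← RingHom.map_det]
    rfl
  -- the two reductions of the columns
  have hc2 : ∀ j : Option (Fin q), O₂.valuation (u * b j -
      ∑ i : Fin q, algebraMap K L ((MV (some i) j : V) : K) * y ^ (i : ℕ)) < 1 := by
    intro j
    have e := eq_comb_repr b hb (u * b j)
    have h := val_comb_sub_lt_one h₂ hθ2 hy'2 hy hyy (fun i => b.repr (u * b j) (some i))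
      (fun i => hcoord _ (hx1 j) (hx2 j) (some i)) (hcoord _ (hx1 j) (hx2 j) none)
    rw [← e] at h
    exact h
  have hc1 : ∀ j : Option (Fin q),
      O₁.valuation (u * b j - algebraMap K L ((MV none j : V) : K)) < 1 := by
    intro j
    have e := eq_comb_repr b hb (u * b j)
    have h := val_comb_sub_le h₁ (θ := θ) hy'1 (fun i => b.repr (u * b j) (some i))
      (fun i => hcoord _ (hx1 j) (hx2 j) (some i)) (hcoord _ (hx1 j) (hx2 j) none)
    rw [← e] at h
    exact lt_of_le_of_lt h hθ1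
  -- the off-diagonal blocks vanish modulo the maximal ideal
  have c1 : ∀ i : Fin q, MV (some i) none ∈ IsLocalRing.maximalIdeal V := by
    have hs : ∑ i : Fin q, algebraMap K L ((MV (some i) none : V) : K) * y ^ (i : ℕ) ∈
        O₂.nonunits := by
      rw [ValuationSubring.mem_nonunits_iff]
      have e : ∑ i : Fin q, algebraMap K L ((MV (some i) none : V) : K) * y ^ (i : ℕ) =
          u * b none - (u * b none -
            ∑ i : Fin q, algebraMap K L ((MV (some i) none : V) : K) * y ^ (i : ℕ)) := by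
        ring
      rw [e]
      refine Valuation.map_sub_lt _ ?_ (hc2 none)
      rw [hbnone]
      exact val_mul_lt_one O₂ ((O₂.valuation_le_one_iff _).2 hu₂) he2
    have hY := coeff_mem_nonunits_of_sum_mem h₂ hq hqV hy hv hyv hyn
      (fun i => ((MV (some i) none : V) : K)) (fun i => (MV (some i) none).2) hs
    exact fun i => ValuationSubring.coe_mem_nonunits_iff.1 (hY i)
  have c3 : ∀ j : Fin q, MV none (some j) ∈ IsLocalRing.maximalIdeal V := by
    intro j
    rw [← ValuationSubring.coe_mem_nonunits_iff, ← algebraMap_val_lt_one_iff h₁]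
    have e : algebraMap K L ((MV none (some j) : V) : K) =
        u * b (some j) - (u * b (some j) - algebraMap K L ((MV none (some j) : V) : K)) := by
      ring
    rw [e]
    refine Valuation.map_sub_lt _ ?_ (hc1 (some j))
    rw [hbsome, ← mul_assoc]
    exact val_mul_lt_one O₁ ((O₁.valuation_le_one_iff _).2 (mul_mem hu₁ (pow_mem hy'1 _))) hθ1
  have c2 : MV none none - ⟨v₁, hv₁⟩ ∈ IsLocalRing.maximalIdeal V := by
    rw [← ValuationSubring.coe_mem_nonunits_iff, ← algebraMap_val_lt_one_iff h₁]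
    have e : algebraMap K L ((MV none none - ⟨v₁, hv₁⟩ : V) : K) =
        (u - algebraMap K L v₁) - ((u * b none - algebraMap K L ((MV none none : V) : K)) +
          u * θ) := by
      rw [hbnone]
      have e' : ((MV none none - ⟨v₁, hv₁⟩ : V) : K) = ((MV none none : V) : K) - v₁ := rfl
      rw [e', map_sub]
      ring
    rw [e]
    refine Valuation.map_sub_lt _ h1 (Valuation.map_add_lt _ (hc1 none) ?_)
    exact val_mul_lt_one O₁ ((O₁.valuation_le_one_iff _).2 hu₁) hθ1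
  -- the `q × q` block
  have c4 : ∀ j : Fin q, O₂.valuation (u * y ^ (j : ℕ) -
      ∑ i : Fin q, algebraMap K L ((MV (some i) (some j) : V) : K) * y ^ (i : ℕ)) < 1 := by
    intro j
    have e : u * y ^ (j : ℕ) -
        ∑ i : Fin q, algebraMap K L ((MV (some i) (some j) : V) : K) * y ^ (i : ℕ) =
        (u * b (some j) -
          ∑ i : Fin q, algebraMap K L ((MV (some i) (some j) : V) : K) * y ^ (i : ℕ)) +
        (u * (y ^ (j : ℕ) - y' ^ (j : ℕ)) + u * y' ^ (j : ℕ) * (1 - θ)) := by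
      rw [hbsome]
      ring
    rw [e]
    refine Valuation.map_add_lt _ (hc2 (some j)) (Valuation.map_add_lt _ ?_ ?_)
    · refine val_mul_lt_one O₂ ((O₂.valuation_le_one_iff _).2 hu₂)
        (val_pow_sub_pow_lt_one O₂ hy hy'2 ?_ _)
      rw [Valuation.map_sub_swap]
      exact hyy
    · exact val_mul_lt_one O₂ ((O₂.valuation_le_one_iff _).2 (mul_mem hu₂ (pow_mem hy'2 _))) he2
  have c6 : ∀ i j : Fin q, ((Matrix.of fun i j : Fin q => MV (some i) (some j)) ^ q) i j -
      (if i = j then (⟨v₂, hv₂⟩ : V) else 0) ∈ IsLocalRing.maximalIdeal V := by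
    intro i j
    have hpow := val_pow_mul_sub_lt_one h₂ (y := y) hu₂
      (Matrix.of fun i j : Fin q => MV (some i) (some j)) c4 q j
    set D : Matrix (Fin q) (Fin q) V := (Matrix.of fun i j : Fin q => MV (some i) (some j)) ^ q
      with hD
    have hcV : ∀ k : Fin q, ((D k j : V) : K) - (if k = j then v₂ else 0) ∈ V := fun k =>
      sub_mem (D k j).2 (by split_ifs; exacts [hv₂, V.zero_mem])
    have hs : ∑ k : Fin q, algebraMap K L (((D k j : V) : K) - (if k = j then v₂ else 0)) *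
        y ^ (k : ℕ) ∈ O₂.nonunits := by
      rw [ValuationSubring.mem_nonunits_iff]
      have e : ∑ k : Fin q, algebraMap K L (((D k j : V) : K) - (if k = j then v₂ else 0)) *
          y ^ (k : ℕ) = y ^ (j : ℕ) * (u ^ q - algebraMap K L v₂) - (u ^ q * y ^ (j : ℕ) -
            ∑ k : Fin q, algebraMap K L ((D k j : V) : K) * y ^ (k : ℕ)) := by
        have e' : ∑ k : Fin q, algebraMap K L (if k = j then v₂ else 0) * y ^ (k : ℕ) =
            algebraMap K L v₂ * y ^ (j : ℕ) := by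
          rw [Finset.sum_eq_single j]
          · rw [if_pos rfl]
          · intro k _ hkj
            rw [if_neg hkj, map_zero, zero_mul]
          · intro h
            exact absurd (Finset.mem_univ j) h
        simp only [map_sub, sub_mul, Finset.sum_sub_distrib]
        rw [e']
        ring
      rw [e]
      exact Valuation.map_sub_lt _
        (val_mul_lt_one O₂ ((O₂.valuation_le_one_iff _).2 (pow_mem hy _)) h2) hpow
    have hY := coeff_mem_nonunits_of_sum_mem h₂ hq hqV hy hv hyv hyn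
      (fun k => ((D k j : V) : K) - (if k = j then v₂ else 0)) hcV hs i
    rw [← ValuationSubring.coe_mem_nonunits_iff]
    have e'' : ((D i j - (if i = j then (⟨v₂, hv₂⟩ : V) else 0) : V) : K) =
        ((D i j : V) : K) - (if i = j then v₂ else 0) := by
      split_ifs <;> rfl
    rw [e'']
    exact hY
  have hqR : ((q : ℕ) : V) ∈ IsLocalRing.maximalIdeal V := by
    rw [← ValuationSubring.coe_mem_nonunits_iff]
    exact hqV
  have hdet := det_sub_mem hq hqR MV ⟨v₁, hv₁⟩ ⟨v₂, hv₂⟩ c1 c2 c3 c6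
  rw [hnorm]
  refine ⟨(MV.det).2, ?_⟩
  rw [← ValuationSubring.coe_mem_nonunits_iff] at hdet
  exact hdet

end Norm

section Residues

variable {K : Type u} {L : Type v} [Field K] [Field L] [Algebra K L]
variable {V : ValuationSubring K}

/-- The `q`-th power of an element of `O₂` is congruent to an element of `V`: if
`u ≡ ∑ c_i y^i` and `y ^ q ≡ v` then `u ^ q ≡ ∑ c_i^q v^i`. -/
lemma pow_sub_mem_nonunits {O₂ : ValuationSubring L} (h₂ : O₂.comap (algebraMap K L) = V)
    {q : ℕ} (hq : q.Prime) (hqV : (q : K) ∈ V.nonunits) {y : L} (hy : y ∈ O₂) {v : K}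
    (hv : v ∈ V) (hyv : y ^ q - algebraMap K L v ∈ O₂.nonunits) {u : L} (hu : u ∈ O₂)
    (c : Fin q → K) (hc : ∀ i, c i ∈ V)
    (huc : u - ∑ i : Fin q, algebraMap K L (c i) * y ^ (i : ℕ) ∈ O₂.nonunits) :
    u ^ q - algebraMap K L (∑ i : Fin q, c i ^ q * v ^ (i : ℕ)) ∈ O₂.nonunits := by
  classical
  have : Fact q.Prime := ⟨hq⟩
  set ρ := IsLocalRing.residue O₂ with hρ
  have hq0 : (q : IsLocalRing.ResidueField O₂) = 0 := by
    have hm : ((q : ℕ) : O₂) ∈ IsLocalRing.maximalIdeal O₂ := by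
      rw [← ValuationSubring.coe_mem_nonunits_iff, ValuationSubring.mem_nonunits_iff]
      have h := (algebraMap_val_lt_one_iff h₂ (q : K)).2 hqV
      rwa [map_natCast] at h
    have h := (IsLocalRing.residue_eq_zero_iff _).2 hm
    rwa [map_natCast] at h
  have : CharP (IsLocalRing.ResidueField O₂) q := (CharP.charP_iff_prime_eq_zero hq).2 hq0
  have hU : ρ ⟨u, hu⟩ = ∑ i : Fin q, ρ (incl h₂ ⟨c i, hc i⟩) * ρ ⟨y, hy⟩ ^ (i : ℕ) := by
    have hm : (⟨u, hu⟩ : O₂) - ∑ i : Fin q, incl h₂ ⟨c i, hc i⟩ * (⟨y, hy⟩ : O₂) ^ (i : ℕ) ∈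
        IsLocalRing.maximalIdeal O₂ := by
      rw [← ValuationSubring.coe_mem_nonunits_iff]
      have e : (((⟨u, hu⟩ : O₂) -
          ∑ i : Fin q, incl h₂ ⟨c i, hc i⟩ * (⟨y, hy⟩ : O₂) ^ (i : ℕ) : O₂) : L) =
          u - ∑ i : Fin q, algebraMap K L (c i) * y ^ (i : ℕ) := by
        simp [coe_incl]
      rw [e]
      exact huc
    have h := (IsLocalRing.residue_eq_zero_iff _).2 hm
    rw [map_sub, sub_eq_zero] at h
    rw [← hρ] at h
    rw [h, map_sum]
    simp only [map_mul, map_pow]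
  have hY : ρ ⟨y, hy⟩ ^ q = ρ (incl h₂ ⟨v, hv⟩) := by
    have hm : (⟨y, hy⟩ : O₂) ^ q - incl h₂ ⟨v, hv⟩ ∈ IsLocalRing.maximalIdeal O₂ := by
      rw [← ValuationSubring.coe_mem_nonunits_iff]
      exact hyv
    have h := (IsLocalRing.residue_eq_zero_iff _).2 hm
    rwa [map_sub, map_pow, sub_eq_zero] at h
  have hfin : ρ ⟨u, hu⟩ ^ q =
      ρ (incl h₂ (∑ i : Fin q, (⟨c i, hc i⟩ : V) ^ q * (⟨v, hv⟩ : V) ^ (i : ℕ))) := by
    rw [hU, sum_pow_char]
    simp only [map_sum, map_mul, map_pow, mul_pow]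
    refine Finset.sum_congr rfl fun i _ => ?_
    rw [← pow_mul, mul_comm (i : ℕ) q, pow_mul, hY]
  have hm : (⟨u, hu⟩ : O₂) ^ q -
      incl h₂ (∑ i : Fin q, (⟨c i, hc i⟩ : V) ^ q * (⟨v, hv⟩ : V) ^ (i : ℕ)) ∈
      IsLocalRing.maximalIdeal O₂ := by
    rw [← IsLocalRing.residue_eq_zero_iff, map_sub, map_pow, sub_eq_zero]
    exact hfin
  rw [← ValuationSubring.coe_mem_nonunits_iff] at hm
  have e : (((⟨u, hu⟩ : O₂) ^ q -
      incl h₂ (∑ i : Fin q, (⟨c i, hc i⟩ : V) ^ q * (⟨v, hv⟩ : V) ^ (i : ℕ)) : O₂) : L) =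
      u ^ q - algebraMap K L (∑ i : Fin q, c i ^ q * v ^ (i : ℕ)) := by
    simp [coe_incl]
  rwa [e] at hm

end Residues

section Statements

/-- **(N1) The norm formula** in the two-extension setting (hypotheses as in
`Fermat.Agent.S34.H64.TwoExtStatement`): for `u ∈ O₁ ∩ O₂` with `u ≡ v₁ (mod m₁)` and
`u ^ q ≡ v₂ (mod m₂)`, `v₁, v₂ ∈ V`, the norm `N_{L/K}(u)` lies in `V` and is congruent to
`v₁ * v₂` modulo the maximal ideal of `V`. -/
theorem normFormula (K : Type u) (L : Type v) [Field K] [Field L] [Algebra K L]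
    [FiniteDimensional K L] (V : ValuationSubring K) [IsDiscreteValuationRing V] (q : ℕ)
    (hq : q.Prime) (hqV : (q : K) ∈ V.nonunits) (hfin : Module.finrank K L = q + 1)
    (O₁ O₂ : ValuationSubring L) (h₁ : O₁.comap (algebraMap K L) = V)
    (h₂ : O₂.comap (algebraMap K L) = V) (hne : O₁ ≠ O₂) (y : L) (hy : y ∈ O₂)
    (hyq : ∃ v ∈ V, y ^ q - algebraMap K L v ∈ O₂.nonunits)
    (hyn : ∀ v ∈ V, y - algebraMap K L v ∉ O₂.nonunits)
    (u : L) (hu₁ : u ∈ O₁) (hu₂ : u ∈ O₂) (v₁ v₂ : K) (hv₁ : v₁ ∈ V) (hv₂ : v₂ ∈ V)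
    (h1 : u - algebraMap K L v₁ ∈ O₁.nonunits) (h2 : u ^ q - algebraMap K L v₂ ∈ O₂.nonunits) :
    Algebra.norm K u ∈ V ∧ Algebra.norm K u - v₁ * v₂ ∈ V.nonunits := by
  obtain ⟨v, hv, hyv⟩ := hyq
  obtain ⟨π, hπ0, hπV, hπ⟩ := exists_uniformizer V
  obtain ⟨θ, y', b, hθ1, hθ2, hy'1, hy'2, hyy, hb, hcoord⟩ :=
    exists_basis h₁ h₂ hne hπ0 hπV hπ hq hqV hfin hy hv hyv hyn
  have hP1 : O₁.valuation (algebraMap K L π) < 1 := (algebraMap_val_lt_one_iff h₁ π).2 hπV
  have hP2 : O₂.valuation (algebraMap K L π) < 1 := (algebraMap_val_lt_one_iff h₂ π).2 hπV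
  exact norm_sub_mem_of_basis h₁ h₂ hq hqV hy hv hyv hyn (lt_of_le_of_lt hθ1 hP1)
    (lt_of_le_of_lt hθ2 hP2) hy'1 hy'2 hyy b hb hcoord hu₁ hu₂ hv₁ hv₂ h1 h2

/-- The residues needed in `normFormula` exist for every `u ∈ O₁ ∩ O₂`. -/
theorem exists_residues (K : Type u) (L : Type v) [Field K] [Field L] [Algebra K L]
    [FiniteDimensional K L] (V : ValuationSubring K) [IsDiscreteValuationRing V] (q : ℕ)
    (hq : q.Prime) (hqV : (q : K) ∈ V.nonunits) (hfin : Module.finrank K L = q + 1)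
    (O₁ O₂ : ValuationSubring L) (h₁ : O₁.comap (algebraMap K L) = V)
    (h₂ : O₂.comap (algebraMap K L) = V) (hne : O₁ ≠ O₂) (y : L) (hy : y ∈ O₂)
    (hyq : ∃ v ∈ V, y ^ q - algebraMap K L v ∈ O₂.nonunits)
    (hyn : ∀ v ∈ V, y - algebraMap K L v ∉ O₂.nonunits)
    (u : L) (hu₁ : u ∈ O₁) (hu₂ : u ∈ O₂) :
    ∃ v₁ ∈ V, ∃ v₂ ∈ V, u - algebraMap K L v₁ ∈ O₁.nonunits ∧
      u ^ q - algebraMap K L v₂ ∈ O₂.nonunits := by
  obtain ⟨v, hv, hyv⟩ := hyq
  obtain ⟨π, hπ0, hπV, hπ⟩ := exists_uniformizer V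
  obtain ⟨-, -, -, hres1, hres2⟩ :=
    twoExt_of_uniformizer hq hqV hfin h₁ h₂ hne hy hv hyv hyn hπ0 hπV hπ
  obtain ⟨v₁, hv₁, h1⟩ := hres1 u hu₁
  obtain ⟨c, hc, huc⟩ := hres2 u hu₂
  refine ⟨v₁, hv₁, ∑ i : Fin q, c i ^ q * v ^ (i : ℕ), ?_, h1,
    pow_sub_mem_nonunits h₂ hq hqV hy hv hyv hu₂ c hc huc⟩
  exact sum_mem fun i _ => mul_mem (pow_mem (hc i) _) (pow_mem hv _)

/-- **(N1), existential form**: the norm of `u ∈ O₁ ∩ O₂` is the product of a residue of `u`
at `O₁` and a residue of `u ^ q` at `O₂`, modulo the maximal ideal of `V`. -/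
theorem exists_norm_residues (K : Type u) (L : Type v) [Field K] [Field L] [Algebra K L]
    [FiniteDimensional K L] (V : ValuationSubring K) [IsDiscreteValuationRing V] (q : ℕ)
    (hq : q.Prime) (hqV : (q : K) ∈ V.nonunits) (hfin : Module.finrank K L = q + 1)
    (O₁ O₂ : ValuationSubring L) (h₁ : O₁.comap (algebraMap K L) = V)
    (h₂ : O₂.comap (algebraMap K L) = V) (hne : O₁ ≠ O₂) (y : L) (hy : y ∈ O₂)
    (hyq : ∃ v ∈ V, y ^ q - algebraMap K L v ∈ O₂.nonunits)
    (hyn : ∀ v ∈ V, y - algebraMap K L v ∉ O₂.nonunits)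
    (u : L) (hu₁ : u ∈ O₁) (hu₂ : u ∈ O₂) :
    ∃ v₁ ∈ V, ∃ v₂ ∈ V, u - algebraMap K L v₁ ∈ O₁.nonunits ∧
      u ^ q - algebraMap K L v₂ ∈ O₂.nonunits ∧ Algebra.norm K u ∈ V ∧
      Algebra.norm K u - v₁ * v₂ ∈ V.nonunits := by
  obtain ⟨v₁, hv₁, v₂, hv₂, h1, h2⟩ :=
    exists_residues K L V q hq hqV hfin O₁ O₂ h₁ h₂ hne y hy hyq hyn u hu₁ hu₂
  obtain ⟨hN, hN'⟩ :=
    normFormula K L V q hq hqV hfin O₁ O₂ h₁ h₂ hne y hy hyq hyn u hu₁ hu₂ v₁ v₂ hv₁ hv₂ h1 h2
  exact ⟨v₁, hv₁, v₂, hv₂, h1, h2, hN, hN'⟩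

end Statements

end Fermat.Agent.S35.H57
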