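/-
S35, geometry side (helper57): (L5) PT-TRANSFER — the point type `H27.PointFrob` passes between
two charts with the same local ring, and hence from the finite chart to the non-cusp points of
the chart at infinity.

* `PT.locMax_iff`, `PT.locMax_congr` : the maximal ideal of the local ring `C_x ⊆ F` is determined
  by the local ring.
* `PT.exists_nonunit_transfer`, `PT.branchNormal_transfer`, `PT.nonunits_mem_transfer`,
  `PT.frob_mem_transfer`, `PT.fib_transfer` : the constituents of `OneComp` / `Crossing`.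
* `pointFrob_transfer` : `PointFrob C V₁ V₂ S Q m x → PointFrob C' V₁ V₂ S Q m x'` when
  `C_x = C'_{x'}` inside `F` (the `S35` analogue of `H77.pointOK_transfer`).
* `pointFrob_of_glue` : `PointFrob` at a closed point `x` of the chart at infinity `C₂` with
  `j⁻¹ ∉ x` from `PointFrob` at the closed points of the finite chart `C₁` (the `S35` analogue of
  `H77.pointOK_of_glue`; the point of `C₁` is `H77.exists_point_of_glue`).
-/
import Fermat.Agent.S34.H77.ChartTransfer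
import Fermat.Agent.S35.H27.FrobCech

set_option autoImplicit false
set_option linter.style.haveILetI false

namespace Fermat.Agent.S35.H57

open Fermat.Agent.S34.H54 Fermat.Agent.S34.H77 Fermat.Agent.S35.H27

namespace PT

section Val

variable {F : Type*} [Field F]

theorem mul_mem_nonunits (V : ValuationSubring F) {a b : F} (ha : a ∈ V) (hb : b ∈ V.nonunits) :
    a * b ∈ V.nonunits := by
  rw [nu_iff] at hb ⊢
  exact val_mul_lt' V ((mem_iff V).1 ha) hb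

end Val

section Loc

variable {A₀ : Type*} [CommRing A₀] {F : Type*} [Field F] [Algebra A₀ F]

/-- For an element of the chart: it lies in the maximal ideal of the local ring iff it lies in
the prime. -/
theorem locMax_coe_iff (C : Subalgebra A₀ F) (x : Ideal ↥C) [hx : x.IsPrime] (c : ↥C) :
    locMax C x (c : F) ↔ c ∈ x := by
  constructor
  · rintro ⟨σ, hσ, a, ha, e⟩
    have h1 : σ * c = a := Subtype.ext e
    have h2 : σ * c ∈ x := by rw [h1]; exact ha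
    exact (hx.mem_or_mem h2).resolve_left hσ
  · exact fun h => locMax_of_mem C x c h

/-- The maximal ideal of the local ring in terms of the local ring alone. -/
theorem locMax_iff (C : Subalgebra A₀ F) (x : Ideal ↥C) [hx : x.IsPrime] (y : F) :
    locMax C x y ↔ y ∈ locSubring (K := F) x ∧ (y = 0 ∨ y⁻¹ ∉ locSubring (K := F) x) := by
  constructor
  · intro h
    refine ⟨locMax_mem C x h, ?_⟩
    by_cases hy : y = 0
    · exact Or.inl hy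
    · refine Or.inr fun hinv => not_locMax_one C x ?_
      have h1 := locMax_mul C x h hinv
      rwa [inv_mul_cancel₀ hy] at h1
  · rintro ⟨hy, h | h⟩
    · rw [h]
      exact locMax_zero C x
    · by_contra hn
      exact h (inv_mem_of_not_locMax C x hy hn)

/-- Two charts with the same local ring have the same maximal ideal of the local ring. -/
theorem locMax_congr (C C' : Subalgebra A₀ F) (x : Ideal ↥C) (hx : x.IsPrime)
    (x' : Ideal ↥C') (hx' : x'.IsPrime)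
    (hloc : ∀ y : F, y ∈ @locSubring _ _ F _ _ x hx ↔ y ∈ @locSubring _ _ F _ _ x' hx')
    (y : F) : locMax C x y ↔ locMax C' x' y := by
  haveI := hx
  haveI := hx'
  have h1 := locMax_iff C x y
  have h2 := locMax_iff C' x' y
  constructor
  · intro h
    obtain ⟨ha, hb⟩ := h1.1 h
    refine h2.2 ⟨(hloc y).1 ha, hb.imp id fun h3 h4 => h3 ((hloc y⁻¹).2 h4)⟩
  · intro h
    obtain ⟨ha, hb⟩ := h2.1 h
    refine h1.2 ⟨(hloc y).2 ha, hb.imp id fun h3 h4 => h3 ((hloc y⁻¹).1 h4)⟩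

/-- An element of the chart `C` is a fraction of elements of the chart `C'` with denominator
outside `x'`. -/
theorem rep_of_coe (C C' : Subalgebra A₀ F) (x : Ideal ↥C) (hx : x.IsPrime)
    (x' : Ideal ↥C') (hx' : x'.IsPrime)
    (hloc : ∀ y : F, y ∈ @locSubring _ _ F _ _ x hx ↔ y ∈ @locSubring _ _ F _ _ x' hx')
    (c : ↥C) : ∃ a s : ↥C', s ∉ x' ∧ (s : F) * (c : F) = (a : F) := by
  haveI := hx
  haveI := hx'
  have h1 : (c : F) ∈ locSubring (K := F) x := algebraMap_mem_locSubring x c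
  obtain ⟨s, hs, a, e⟩ := (hloc _).1 h1
  exact ⟨a, s, hs, e.symm⟩

theorem rep_of_not_mem (C C' : Subalgebra A₀ F) (x : Ideal ↥C) (hx : x.IsPrime)
    (x' : Ideal ↥C') (hx' : x'.IsPrime)
    (hloc : ∀ y : F, y ∈ @locSubring _ _ F _ _ x hx ↔ y ∈ @locSubring _ _ F _ _ x' hx')
    (c : ↥C) (hc : c ∉ x) : ∃ a s : ↥C', a ∉ x' ∧ s ∉ x' ∧ (s : F) * (c : F) = (a : F) := by
  haveI := hx
  haveI := hx'
  obtain ⟨a, s, hs, e⟩ := rep_of_coe C C' x hx x' hx' hloc c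
  refine ⟨a, s, fun ha => hc ?_, hs, e⟩
  have h1 : locMax C' x' (c : F) := ⟨s, hs, a, ha, e⟩
  exact (locMax_coe_iff C x c).1 ((locMax_congr C C' x hx x' hx' hloc _).2 h1)

theorem rep_of_mem (C C' : Subalgebra A₀ F) (x : Ideal ↥C) (hx : x.IsPrime)
    (x' : Ideal ↥C') (hx' : x'.IsPrime)
    (hloc : ∀ y : F, y ∈ @locSubring _ _ F _ _ x hx ↔ y ∈ @locSubring _ _ F _ _ x' hx')
    (c : ↥C) (hc : c ∈ x) : ∃ a s : ↥C', a ∈ x' ∧ s ∉ x' ∧ (s : F) * (c : F) = (a : F) := by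
  haveI := hx
  haveI := hx'
  have h1 : locMax C' x' (c : F) :=
    (locMax_congr C C' x hx x' hx' hloc _).1 ((locMax_coe_iff C x c).2 hc)
  obtain ⟨s, hs, a, ha, e⟩ := h1
  exact ⟨a, s, ha, hs, e⟩

/-- The first conjunct of `OneComp`. -/
theorem exists_nonunit_transfer (C C' : Subalgebra A₀ F) (x : Ideal ↥C) (hx : x.IsPrime)
    (x' : Ideal ↥C') (hx' : x'.IsPrime)
    (hloc : ∀ y : F, y ∈ @locSubring _ _ F _ _ x hx ↔ y ∈ @locSubring _ _ F _ _ x' hx')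
    (W : ValuationSubring F) (hC'W : ∀ c ∈ C', c ∈ W)
    (h : ∃ t : ↥C, t ∉ x ∧ (t : F) ∈ W.nonunits) :
    ∃ t : ↥C', t ∉ x' ∧ (t : F) ∈ W.nonunits := by
  obtain ⟨t, ht, htW⟩ := h
  obtain ⟨a, s, ha, hs, e⟩ := rep_of_not_mem C C' x hx x' hx' hloc t ht
  refine ⟨a, ha, ?_⟩
  rw [← e]
  exact mul_mem_nonunits W (hC'W _ s.2) htW

/-- `BranchNormal` passes between two charts with the same local ring. -/
theorem branchNormal_transfer (C C' : Subalgebra A₀ F) (x : Ideal ↥C) (hx : x.IsPrime)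
    (x' : Ideal ↥C') (hx' : x'.IsPrime)
    (hloc : ∀ y : F, y ∈ @locSubring _ _ F _ _ x hx ↔ y ∈ @locSubring _ _ F _ _ x' hx')
    (V : ValuationSubring F) (hCV : ∀ c ∈ C, c ∈ V) (hC'V : ∀ c ∈ C', c ∈ V) (m : ℕ)
    (h : BranchNormal C V m x) : BranchNormal C' V m x' := by
  have hloc' : ∀ y : F, y ∈ @locSubring _ _ F _ _ x' hx' ↔ y ∈ @locSubring _ _ F _ _ x hx :=
    fun y => (hloc y).symm
  rintro y hy ⟨a', b', ha', hb', hab⟩
  obtain ⟨a, s, ha, hs, ea⟩ := rep_of_not_mem C' C x' hx' x hx hloc' a' ha'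
  obtain ⟨b, t, hb, ht, eb⟩ := rep_of_not_mem C' C x' hx' x hx hloc' b' hb'
  have hhyp : ∃ a₀ b₀ : ↥C, a₀ ∉ x ∧ b₀ ∉ x ∧ y ^ m * (b₀ : F) - (a₀ : F) ∈ V.nonunits := by
    refine ⟨a * t, b * s, fun h => (hx.mem_or_mem h).elim ha ht,
      fun h => (hx.mem_or_mem h).elim hb hs, ?_⟩
    show y ^ m * ((b : F) * (s : F)) - (a : F) * (t : F) ∈ V.nonunits
    have e : y ^ m * ((b : F) * (s : F)) - (a : F) * (t : F) =
        ((s : F) * (t : F)) * (y ^ m * (b' : F) - (a' : F)) := by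
      rw [← ea, ← eb]
      ring
    rw [e]
    exact mul_mem_nonunits V (V.mul_mem _ _ (hCV _ s.2) (hCV _ t.2)) hab
  obtain ⟨s₁, s₂, hs₁, hs₂, h12⟩ := h y hy hhyp
  obtain ⟨a₁, t₁, ha₁, ht₁, e₁⟩ := rep_of_not_mem C C' x hx x' hx' hloc s₁ hs₁
  obtain ⟨a₂, t₂, ha₂, ht₂, e₂⟩ := rep_of_not_mem C C' x hx x' hx' hloc s₂ hs₂
  refine ⟨a₁ * t₂, a₂ * t₁, fun h => (hx'.mem_or_mem h).elim ha₁ ht₂,
    fun h => (hx'.mem_or_mem h).elim ha₂ ht₁, ?_⟩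
  show y * ((a₂ : F) * (t₁ : F)) - (a₁ : F) * (t₂ : F) ∈ V.nonunits
  have e : y * ((a₂ : F) * (t₁ : F)) - (a₁ : F) * (t₂ : F) =
      ((t₁ : F) * (t₂ : F)) * (y * (s₂ : F) - (s₁ : F)) := by
    rw [← e₁, ← e₂]
    ring
  rw [e]
  exact mul_mem_nonunits V (V.mul_mem _ _ (hC'V _ t₁.2) (hC'V _ t₂.2)) h12

/-- The first two conjuncts of `Crossing`: the point lies on the `V`-component. -/
theorem nonunits_mem_transfer (C C' : Subalgebra A₀ F) (x : Ideal ↥C) (hx : x.IsPrime)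
    (x' : Ideal ↥C') (hx' : x'.IsPrime)
    (hloc : ∀ y : F, y ∈ @locSubring _ _ F _ _ x hx ↔ y ∈ @locSubring _ _ F _ _ x' hx')
    (V : ValuationSubring F) (hCV : ∀ c ∈ C, c ∈ V)
    (h : ∀ c : ↥C, (c : F) ∈ V.nonunits → c ∈ x) :
    ∀ c : ↥C', (c : F) ∈ V.nonunits → c ∈ x' := by
  haveI := hx
  haveI := hx'
  intro c' hc'
  obtain ⟨a, s, hs, e⟩ := rep_of_coe C' C x' hx' x hx (fun y => (hloc y).symm) c'
  have ha : a ∈ x := h a (by rw [← e]; exact mul_mem_nonunits V (hCV _ s.2) hc')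
  have h1 : locMax C x (c' : F) := ⟨s, hs, a, ha, e⟩
  exact (locMax_coe_iff C' x' c').1 ((locMax_congr C C' x hx x' hx' hloc _).1 h1)

/-- The third conjunct of `Crossing`: `S` is the `Q`-power map modulo the point. -/
theorem frob_mem_transfer (C C' : Subalgebra A₀ F) (x : Ideal ↥C) (hx : x.IsPrime)
    (x' : Ideal ↥C') (hx' : x'.IsPrime)
    (hloc : ∀ y : F, y ∈ @locSubring _ _ F _ _ x hx ↔ y ∈ @locSubring _ _ F _ _ x' hx')
    (S : F ≃+* F) (hSC' : ∀ c ∈ C', S c ∈ C') (Q : ℕ)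
    (h : ∀ c : ↥C, ∃ d : ↥C, d ∈ x ∧ S (c : F) = (c : F) ^ Q + (d : F)) :
    ∀ c : ↥C', ∃ d : ↥C', d ∈ x' ∧ S (c : F) = (c : F) ^ Q + (d : F) := by
  haveI := hx
  haveI := hx'
  intro c'
  obtain ⟨a, s, hs, e⟩ := rep_of_coe C' C x' hx' x hx (fun y => (hloc y).symm) c'
  obtain ⟨da, hda, ea⟩ := h a
  obtain ⟨ds, hds, es⟩ := h s
  have hd : S (c' : F) - (c' : F) ^ Q ∈ C' := C'.sub_mem (hSC' _ c'.2) (C'.pow_mem c'.2 Q)
  refine ⟨⟨_, hd⟩, ?_, ?_⟩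
  · rw [← locMax_coe_iff C' x' ⟨_, hd⟩]
    show locMax C' x' (S (c' : F) - (c' : F) ^ Q)
    rw [← locMax_congr C C' x hx x' hx' hloc]
    have hsQ : s ^ Q ∉ x := fun h => hs (hx.mem_of_pow_mem Q h)
    have hsd : s ^ Q + ds ∉ x := fun h => hsQ (by
      have h1 := x.sub_mem h hds
      rwa [add_sub_cancel_right] at h1)
    refine ⟨s ^ Q * (s ^ Q + ds), fun h => (hx.mem_or_mem h).elim hsQ hsd,
      da * s ^ Q - a ^ Q * ds, x.sub_mem (x.mul_mem_right _ hda) (x.mul_mem_left _ hds), ?_⟩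
    show ((s : F) ^ Q * ((s : F) ^ Q + (ds : F))) * (S (c' : F) - (c' : F) ^ Q) =
      (da : F) * (s : F) ^ Q - (a : F) ^ Q * (ds : F)
    have e1 : S (s : F) * S (c' : F) = (a : F) ^ Q + (da : F) := by rw [← map_mul, e, ea]
    have e2 : (s : F) ^ Q * (c' : F) ^ Q = (a : F) ^ Q := by rw [← mul_pow, e]
    rw [es] at e1
    linear_combination (s : F) ^ Q * e1 - ((s : F) ^ Q + (ds : F)) * e2
  · show S (c' : F) = (c' : F) ^ Q + (S (c' : F) - (c' : F) ^ Q)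
    ring

/-- The sixth conjunct of `Crossing`: transversality. -/
theorem fib_transfer (C C' : Subalgebra A₀ F) (x : Ideal ↥C) (hx : x.IsPrime)
    (x' : Ideal ↥C') (hx' : x'.IsPrime)
    (hloc : ∀ y : F, y ∈ @locSubring _ _ F _ _ x hx ↔ y ∈ @locSubring _ _ F _ _ x' hx')
    (V₁ V₂ : ValuationSubring F) (hC'V₁ : ∀ c ∈ C', c ∈ V₁) (hC'V₂ : ∀ c ∈ C', c ∈ V₂)
    (h : ∀ r : ↥C, r ∈ x → ∃ p₁ p₂ s : ↥C, s ∉ x ∧ (p₁ : F) ∈ V₁.nonunits ∧
      (p₂ : F) ∈ V₂.nonunits ∧ s * r = p₁ + p₂) :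
    ∀ r : ↥C', r ∈ x' → ∃ p₁ p₂ s : ↥C', s ∉ x' ∧ (p₁ : F) ∈ V₁.nonunits ∧
      (p₂ : F) ∈ V₂.nonunits ∧ s * r = p₁ + p₂ := by
  intro r' hr'
  obtain ⟨a, t, ha, ht, ea⟩ :=
    rep_of_mem C' C x' hx' x hx (fun y => (hloc y).symm) r' hr'
  obtain ⟨p₁, p₂, s, hs, hp₁, hp₂, e⟩ := h a ha
  have e' : (s : F) * (a : F) = (p₁ : F) + (p₂ : F) := congrArg (Subtype.val : ↥C → F) e
  obtain ⟨σ, τ, hσ, hτ, eσ⟩ := rep_of_not_mem C C' x hx x' hx' hloc (s * t)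
    (fun h => (hx.mem_or_mem h).elim hs ht)
  have eσ' : (τ : F) * ((s : F) * (t : F)) = (σ : F) := eσ
  obtain ⟨q₁, t₁, ht₁, e₁⟩ := rep_of_coe C C' x hx x' hx' hloc p₁
  obtain ⟨q₂, t₂, ht₂, e₂⟩ := rep_of_coe C C' x hx x' hx' hloc p₂
  refine ⟨τ * t₂ * q₁, τ * t₁ * q₂, σ * t₁ * t₂, ?_, ?_, ?_, ?_⟩
  · intro h
    rcases hx'.mem_or_mem h with h | h
    · rcases hx'.mem_or_mem h with h | h
      · exact hσ h
      · exact ht₁ h
    · exact ht₂ h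
  · show (τ : F) * (t₂ : F) * (q₁ : F) ∈ V₁.nonunits
    rw [← e₁]
    exact mul_mem_nonunits V₁ (V₁.mul_mem _ _ (hC'V₁ _ τ.2) (hC'V₁ _ t₂.2))
      (mul_mem_nonunits V₁ (hC'V₁ _ t₁.2) hp₁)
  · show (τ : F) * (t₁ : F) * (q₂ : F) ∈ V₂.nonunits
    rw [← e₂]
    exact mul_mem_nonunits V₂ (V₂.mul_mem _ _ (hC'V₂ _ τ.2) (hC'V₂ _ t₁.2))
      (mul_mem_nonunits V₂ (hC'V₂ _ t₂.2) hp₂)
  · apply Subtype.ext
    show (σ : F) * (t₁ : F) * (t₂ : F) * (r' : F) =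
      (τ : F) * (t₂ : F) * (q₁ : F) + (τ : F) * (t₁ : F) * (q₂ : F)
    rw [← eσ', ← e₁, ← e₂]
    linear_combination ((τ : F) * (t₁ : F) * (t₂ : F)) * e' +
      ((τ : F) * (s : F) * (t₁ : F) * (t₂ : F)) * ea

end Loc

end PT

section Main

variable {A₀ : Type*} [CommRing A₀] {F : Type*} [Field F] [Algebra A₀ F]

/-- **Transfer of the point type** between two charts with the same local ring. -/
theorem pointFrob_transfer (C C' : Subalgebra A₀ F) (x : Ideal ↥C) (hx : x.IsPrime)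
    (x' : Ideal ↥C') (hx' : x'.IsPrime)
    (hloc : ∀ y : F, y ∈ @locSubring _ _ F _ _ x hx ↔ y ∈ @locSubring _ _ F _ _ x' hx')
    (V₁ V₂ : ValuationSubring F) (hCV₁ : ∀ c ∈ C, c ∈ V₁) (hCV₂ : ∀ c ∈ C, c ∈ V₂)
    (hC'V₁ : ∀ c ∈ C', c ∈ V₁) (hC'V₂ : ∀ c ∈ C', c ∈ V₂)
    (S : F ≃+* F) (hSC' : ∀ c ∈ C', S c ∈ C') (Q m : ℕ)
    (h : PointFrob C V₁ V₂ S Q m x) : PointFrob C' V₁ V₂ S Q m x' := by
  rcases h with ⟨h1, h2⟩ | ⟨h1, h2⟩ | ⟨h1, h2, h3, h4, h5, h6⟩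
  · exact Or.inl ⟨PT.exists_nonunit_transfer C C' x hx x' hx' hloc V₂ hC'V₂ h1,
      PT.branchNormal_transfer C C' x hx x' hx' hloc V₁ hCV₁ hC'V₁ m h2⟩
  · exact Or.inr (Or.inl ⟨PT.exists_nonunit_transfer C C' x hx x' hx' hloc V₁ hC'V₁ h1,
      PT.branchNormal_transfer C C' x hx x' hx' hloc V₂ hCV₂ hC'V₂ m h2⟩)
  · exact Or.inr (Or.inr ⟨PT.nonunits_mem_transfer C C' x hx x' hx' hloc V₁ hCV₁ h1,
      PT.nonunits_mem_transfer C C' x hx x' hx' hloc V₂ hCV₂ h2,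
      PT.frob_mem_transfer C C' x hx x' hx' hloc S hSC' Q h3,
      PT.branchNormal_transfer C C' x hx x' hx' hloc V₁ hCV₁ hC'V₁ m h4,
      PT.branchNormal_transfer C C' x hx x' hx' hloc V₂ hCV₂ hC'V₂ m h5,
      PT.fib_transfer C C' x hx x' hx' hloc V₁ V₂ hC'V₁ hC'V₂ h6⟩)

/-- **The point type at the non-cusp points of the chart at infinity** from the point types on
the finite chart. -/
theorem pointFrob_of_glue [IsDomain A₀] [IsDiscreteValuationRing A₀] (ϖ : A₀)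
    (hϖ : Irreducible ϖ) (j : F) (hj0 : j ≠ 0) (C₁ C₂ : Subalgebra A₀ F)
    (hj₁ : j ∈ C₁) (hj₂ : j⁻¹ ∈ C₂)
    (hint₂ : ∀ c ∈ C₂, IsIntegral (Algebra.adjoin A₀ ({j⁻¹} : Set F)) c)
    (hglue : ∀ y : F, (∃ n : ℕ, j ^ n * y ∈ C₁) ↔ (∃ n : ℕ, j⁻¹ ^ n * y ∈ C₂))
    (V₁ V₂ : ValuationSubring F) (hC₁V₁ : ∀ c ∈ C₁, c ∈ V₁) (hC₁V₂ : ∀ c ∈ C₁, c ∈ V₂)
    (hC₂V₁ : ∀ c ∈ C₂, c ∈ V₁) (hC₂V₂ : ∀ c ∈ C₂, c ∈ V₂)
    (S : F ≃+* F) (hSC₂ : ∀ c : F, S c ∈ C₂ ↔ c ∈ C₂) (Q m : ℕ)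
    (h₁ : ∀ x₁ : Ideal ↥C₁, x₁.IsMaximal → algebraMap A₀ ↥C₁ ϖ ∈ x₁ →
      PointFrob C₁ V₁ V₂ S Q m x₁)
    (x : Ideal ↥C₂) (hx : x.IsMaximal) (hϖx : algebraMap A₀ ↥C₂ ϖ ∈ x)
    (hjx : (⟨j⁻¹, hj₂⟩ : ↥C₂) ∉ x) : PointFrob C₂ V₁ V₂ S Q m x := by
  obtain ⟨x₁, hx₁, hϖ₁, hloc⟩ :=
    exists_point_of_glue ϖ hϖ j hj0 C₁ C₂ hj₁ hj₂ hint₂ hglue x hx hϖx hjx
  exact pointFrob_transfer C₁ C₂ x₁ hx₁.isPrime x hx.isPrime hloc V₁ V₂ hC₁V₁ hC₁V₂ hC₂V₁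
    hC₂V₂ S (fun c hc => (hSC₂ c).2 hc) Q m (h₁ x₁ hx₁ hϖ₁)

end Main

end Fermat.Agent.S35.H57
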