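/-
S35 geometry, leaf (N3) in abstract form (helper57): at a crossing point `x ⊇ P₁ + P₂` of the
level-`M'q` chart `C`, the square of the Frobenius lift induces the `q²`-power map on `C / x`:

  `S₁ (S₁ c) ≡ c ^ (q ^ 2)  (mod x)`   for every `c ∈ C`.

Inputs: the two Kronecker congruences `β g ≡ α (s⁻¹ g) ^ q (mod P₁)`,
`α g ≡ β (s⁻¹ g) ^ q (mod P₂)` for `g` in the level-`M'` chart `C'`, and `C = α(C') + P₁`
(residue degree one on the first component).  In particular `x` is stable under `S₁ ∘ S₁`.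
Mathlib only.
-/
import Mathlib

set_option autoImplicit false

namespace Fermat.Agent.S35.H57

section Pure

variable {C C' : Type*} [CommRing C] [CommRing C']

/-- `a ≡ b (mod I)` implies `a ^ n ≡ b ^ n (mod I)`. -/
lemma pow_sub_pow_mem_of_sub_mem (I : Ideal C) {a b : C} (h : a - b ∈ I) (n : ℕ) :
    a ^ n - b ^ n ∈ I := by
  obtain ⟨r, hr⟩ := sub_dvd_pow_sub_pow a b n
  rw [hr]
  exact I.mul_mem_right _ h

/-- On the image of the level-`M'` chart, `S₁ ∘ S₁` is the `q²`-power map modulo `x`. -/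
theorem alpha_frob_sub_mem (α β : C' →+* C) (s : C' ≃+* C')
    (P₁ P₂ x : Ideal C) (hP₁ : P₁ ≤ x) (hP₂ : P₂ ≤ x) (q : ℕ)
    (kron1 : ∀ g : C', β g - α (s.symm g) ^ q ∈ P₁)
    (kron2 : ∀ g : C', α g - β (s.symm g) ^ q ∈ P₂) (g : C') :
    α (s (s g)) - α g ^ (q ^ 2) ∈ x := by
  have h2 := hP₂ (kron2 (s (s g)))
  rw [RingEquiv.symm_apply_apply] at h2
  have h1 := hP₁ (kron1 (s g))
  rw [RingEquiv.symm_apply_apply] at h1
  have h3 : β (s g) ^ q - (α g ^ q) ^ q ∈ x := pow_sub_pow_mem_of_sub_mem x h1 q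
  have e : α (s (s g)) - α g ^ (q ^ 2) =
      (α (s (s g)) - β (s g) ^ q) + (β (s g) ^ q - (α g ^ q) ^ q) := by
    rw [pow_two, pow_mul]
    ring
  rw [e]
  exact x.add_mem h2 h3

/-- **(N3), ideal form**: `S₁ (S₁ c) ≡ c ^ (q ^ 2)` modulo a crossing point `x`. -/
theorem crossing_frob (α β : C' →+* C) (s : C' ≃+* C') (S₁ : C →+* C)
    (hα : ∀ g, S₁ (α g) = α (s g))
    (P₁ P₂ x : Ideal C) (hP₁ : P₁ ≤ x) (hP₂ : P₂ ≤ x) (hSP₁ : ∀ c ∈ P₁, S₁ c ∈ P₁) (q : ℕ)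
    (kron1 : ∀ g : C', β g - α (s.symm g) ^ q ∈ P₁)
    (kron2 : ∀ g : C', α g - β (s.symm g) ^ q ∈ P₂)
    (surj1 : ∀ c : C, ∃ g : C', c - α g ∈ P₁) (c : C) :
    S₁ (S₁ c) - c ^ (q ^ 2) ∈ x := by
  obtain ⟨g, hg⟩ := surj1 c
  obtain ⟨p, hp, rfl⟩ : ∃ p ∈ P₁, c = α g + p := ⟨c - α g, hg, by ring⟩
  have hstep := alpha_frob_sub_mem α β s P₁ P₂ x hP₁ hP₂ q kron1 kron2 g
  have hSp : S₁ (S₁ p) ∈ x := hP₁ (hSP₁ _ (hSP₁ _ hp))
  have hpow : (α g + p) ^ (q ^ 2) - α g ^ (q ^ 2) ∈ x :=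
    pow_sub_pow_mem_of_sub_mem x (by rw [add_sub_cancel_left]; exact hP₁ hp) _
  have e : S₁ (S₁ (α g + p)) - (α g + p) ^ (q ^ 2) =
      (α (s (s g)) - α g ^ (q ^ 2)) + S₁ (S₁ p) - ((α g + p) ^ (q ^ 2) - α g ^ (q ^ 2)) := by
    rw [map_add, map_add, hα, hα]
    ring
  rw [e]
  exact x.sub_mem (x.add_mem hstep hSp) hpow

/-- A crossing point is stable under `S₁ ∘ S₁`. -/
theorem crossing_frob_mem (α β : C' →+* C) (s : C' ≃+* C') (S₁ : C →+* C)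
    (hα : ∀ g, S₁ (α g) = α (s g))
    (P₁ P₂ x : Ideal C) (hP₁ : P₁ ≤ x) (hP₂ : P₂ ≤ x) (hSP₁ : ∀ c ∈ P₁, S₁ c ∈ P₁) {q : ℕ}
    (hq : 0 < q) (kron1 : ∀ g : C', β g - α (s.symm g) ^ q ∈ P₁)
    (kron2 : ∀ g : C', α g - β (s.symm g) ^ q ∈ P₂)
    (surj1 : ∀ c : C, ∃ g : C', c - α g ∈ P₁) {c : C} (hc : c ∈ x) :
    S₁ (S₁ c) ∈ x := by
  have h := crossing_frob α β s S₁ hα P₁ P₂ x hP₁ hP₂ hSP₁ q kron1 kron2 surj1 c
  have hc' : c ^ (q ^ 2) ∈ x := x.pow_mem_of_mem hc _ (pow_pos hq 2)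
  have e : S₁ (S₁ c) = (S₁ (S₁ c) - c ^ (q ^ 2)) + c ^ (q ^ 2) := by ring
  rw [e]
  exact x.add_mem h hc'

/-- A prime crossing point is exactly stable under `S₁ ∘ S₁`. -/
theorem crossing_frob_mem_iff (α β : C' →+* C) (s : C' ≃+* C') (S₁ : C →+* C)
    (hα : ∀ g, S₁ (α g) = α (s g))
    (P₁ P₂ x : Ideal C) [x.IsPrime] (hP₁ : P₁ ≤ x) (hP₂ : P₂ ≤ x) (hSP₁ : ∀ c ∈ P₁, S₁ c ∈ P₁)
    {q : ℕ} (hq : 0 < q) (kron1 : ∀ g : C', β g - α (s.symm g) ^ q ∈ P₁)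
    (kron2 : ∀ g : C', α g - β (s.symm g) ^ q ∈ P₂)
    (surj1 : ∀ c : C, ∃ g : C', c - α g ∈ P₁) (c : C) :
    S₁ (S₁ c) ∈ x ↔ c ∈ x := by
  refine ⟨fun hc => ?_, fun hc =>
    crossing_frob_mem α β s S₁ hα P₁ P₂ x hP₁ hP₂ hSP₁ hq kron1 kron2 surj1 hc⟩
  have h := crossing_frob α β s S₁ hα P₁ P₂ x hP₁ hP₂ hSP₁ q kron1 kron2 surj1 c
  have hc' : c ^ (q ^ 2) ∈ x := by
    have e : c ^ (q ^ 2) = S₁ (S₁ c) - (S₁ (S₁ c) - c ^ (q ^ 2)) := by ring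
    rw [e]
    exact x.sub_mem hc h
  exact Ideal.IsPrime.mem_of_pow_mem inferInstance _ hc'

end Pure

section Val

variable {A₀ F : Type*} [CommRing A₀] [Field F] [Algebra A₀ F]

lemma crossVal_mul_lt_one (V : ValuationSubring F) {a b : F} (ha : a ∈ V)
    (hb : V.valuation b < 1) : V.valuation (a * b) < 1 := by
  rw [map_mul]
  calc V.valuation a * V.valuation b ≤ 1 * V.valuation b :=
        mul_le_mul' ((V.valuation_le_one_iff _).2 ha) le_rfl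
    _ = V.valuation b := one_mul _
    _ < 1 := hb

/-- The ideal of a chart `C ⊆ V` cut out by the maximal ideal of the valuation ring `V`
(the component of the special fibre attached to `V`). -/
def compIdeal (C : Subalgebra A₀ F) (V : ValuationSubring F) (hCV : ∀ c ∈ C, c ∈ V) :
    Ideal ↥C where
  carrier := {c | (c : F) ∈ V.nonunits}
  zero_mem' := by
    show ((0 : ↥C) : F) ∈ V.nonunits
    rw [ValuationSubring.mem_nonunits_iff, ZeroMemClass.coe_zero, map_zero]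
    exact zero_lt_one
  add_mem' := by
    intro a b ha hb
    show ((a + b : ↥C) : F) ∈ V.nonunits
    have ha' : V.valuation (a : F) < 1 := (ValuationSubring.mem_nonunits_iff V).1 ha
    have hb' : V.valuation (b : F) < 1 := (ValuationSubring.mem_nonunits_iff V).1 hb
    rw [ValuationSubring.mem_nonunits_iff, Subalgebra.coe_add]
    exact Valuation.map_add_lt _ ha' hb'
  smul_mem' := by
    intro c a ha
    show ((c • a : ↥C) : F) ∈ V.nonunits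
    have ha' : V.valuation (a : F) < 1 := (ValuationSubring.mem_nonunits_iff V).1 ha
    rw [ValuationSubring.mem_nonunits_iff, smul_eq_mul, Subalgebra.coe_mul]
    exact crossVal_mul_lt_one V (hCV _ c.2) ha'

lemma mem_compIdeal (C : Subalgebra A₀ F) (V : ValuationSubring F) (hCV : ∀ c ∈ C, c ∈ V)
    (c : ↥C) : c ∈ compIdeal C V hCV ↔ (c : F) ∈ V.nonunits :=
  Iff.rfl

/-- **(N3), chart form**: the Frobenius field of a crossing point.  `C` is a chart contained in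
the two valuation rings `V₁`, `V₂`; `x` an ideal containing both components; `α, β` the two
degeneracy maps from the lower chart `C'`; `S₁` the Frobenius lift on `F`, `s` on `C'`. -/
theorem crossing_frob_val {C' : Type*} [CommRing C'] (C : Subalgebra A₀ F) (x : Ideal ↥C)
    (V₁ V₂ : ValuationSubring F) (hCV₁ : ∀ c ∈ C, c ∈ V₁) (hCV₂ : ∀ c ∈ C, c ∈ V₂)
    (hx₁ : ∀ c : ↥C, (c : F) ∈ V₁.nonunits → c ∈ x)
    (hx₂ : ∀ c : ↥C, (c : F) ∈ V₂.nonunits → c ∈ x)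
    (α β : C' →+* F) (hαC : ∀ g, α g ∈ C) (hβC : ∀ g, β g ∈ C)
    (s : C' ≃+* C') (S₁ : F →+* F) (hS₁C : ∀ c ∈ C, S₁ c ∈ C)
    (hS₁V : ∀ y ∈ V₁.nonunits, S₁ y ∈ V₁.nonunits)
    (hα : ∀ g, S₁ (α g) = α (s g)) (q : ℕ)
    (kron1 : ∀ g : C', β g - α (s.symm g) ^ q ∈ V₁.nonunits)
    (kron2 : ∀ g : C', α g - β (s.symm g) ^ q ∈ V₂.nonunits)
    (surj1 : ∀ c ∈ C, ∃ g : C', c - α g ∈ V₁.nonunits) (c : ↥C) :
    ∃ d : ↥C, d ∈ x ∧ S₁ (S₁ (c : F)) = (c : F) ^ (q ^ 2) + d := by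
  set α' : C' →+* ↥C := α.codRestrict C hαC with hα'
  set β' : C' →+* ↥C := β.codRestrict C hβC with hβ'
  set S' : ↥C →+* ↥C := (S₁.comp C.val.toRingHom).codRestrict C (fun c => hS₁C _ c.2) with hS'
  have hmem := crossing_frob α' β' s S' (fun g => Subtype.ext (hα g))
    (compIdeal C V₁ hCV₁) (compIdeal C V₂ hCV₂) x hx₁ hx₂ (fun c hc => hS₁V _ hc) q
    (fun g => kron1 g) (fun g => kron2 g) (fun c => surj1 _ c.2) c
  refine ⟨S' (S' c) - c ^ (q ^ 2), hmem, ?_⟩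
  have e : ((S' (S' c) - c ^ (q ^ 2) : ↥C) : F) = S₁ (S₁ (c : F)) - (c : F) ^ (q ^ 2) := rfl
  rw [e]
  ring

end Val

end Fermat.Agent.S35.H57
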