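/-
S35 geometry (helper57): transport of finiteness and degree from one embedding `α : K →+* L`
to a second one `β = w ∘ α`, `w` a ring automorphism of `L` (Atkin–Lehner).  Supplies the
hypotheses `hfinβ`, `hrkβ` of `Fermat.Agent.S35.H14.ga_abs` from the `α`-side ones.
Mathlib only.
-/
import Mathlib

set_option autoImplicit false

namespace Fermat.Agent.S35.H57

section BetaRank

variable {K L : Type*} [Field K] [Field L]

/-- The `K`-linear equivalence `(L, α) ≃ (L, w ∘ α)` given by `w`. -/
def twistEquiv (α β : K →+* L) (w : L ≃+* L) (hw : ∀ a, w (α a) = β a) :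
    @LinearEquiv K K _ _ (RingHom.id K) (RingHom.id K) _ _ L L _ _
      α.toAlgebra.toModule β.toAlgebra.toModule :=
  letI mα : Module K L := α.toAlgebra.toModule
  letI mβ : Module K L := β.toAlgebra.toModule
  @LinearEquiv.mk K K _ _ (RingHom.id K) (RingHom.id K) _ _ L L _ _ mα mβ
    (@LinearMap.mk K K _ _ (RingHom.id K) L L _ _ mα mβ ⟨w, map_add w⟩ (by
      intro a x
      show w (α a * x) = β a * w x
      rw [map_mul, hw])) w.symm w.left_inv w.right_inv

/-- Finiteness and degree are the same along `α` and along `β = w ∘ α`. -/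
theorem finite_and_finrank_of_ringEquiv (α β : K →+* L) (w : L ≃+* L)
    (hw : ∀ a, w (α a) = β a)
    (hfin : letI := α.toAlgebra; FiniteDimensional K L) :
    (letI := β.toAlgebra; FiniteDimensional K L) ∧
      (letI := β.toAlgebra; Module.finrank K L) = (letI := α.toAlgebra; Module.finrank K L) := by
  let mα : Module K L := α.toAlgebra.toModule
  let mβ : Module K L := β.toAlgebra.toModule
  have e := twistEquiv α β w hw
  refine ⟨?_, ?_⟩
  · exact @Module.Finite.equiv K L L _ _ mα _ mβ hfin e
  · exact (@LinearEquiv.finrank_eq K L L _ _ mα _ mβ e).symm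

/-- The degree along `β = w ∘ α`. -/
theorem finrank_of_ringEquiv (α β : K →+* L) (w : L ≃+* L) (hw : ∀ a, w (α a) = β a)
    (hfin : letI := α.toAlgebra; FiniteDimensional K L) {n : ℕ}
    (hrk : (letI := α.toAlgebra; Module.finrank K L) = n) :
    (letI := β.toAlgebra; Module.finrank K L) = n :=
  (finite_and_finrank_of_ringEquiv α β w hw hfin).2.trans hrk

/-- Finiteness along `β = w ∘ α`. -/
theorem finite_of_ringEquiv (α β : K →+* L) (w : L ≃+* L) (hw : ∀ a, w (α a) = β a)
    (hfin : letI := α.toAlgebra; FiniteDimensional K L) :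
    letI := β.toAlgebra; FiniteDimensional K L :=
  (finite_and_finrank_of_ringEquiv α β w hw hfin).1

/-- Comaps: `(O.comap w).comap α = O.comap β` when `β = w ∘ α`. -/
theorem comap_comap_of_ringEquiv (α β : K →+* L) (w : L ≃+* L) (hw : ∀ a, w (α a) = β a)
    (O : ValuationSubring L) :
    (O.comap (w : L →+* L)).comap α = O.comap β := by
  ext a
  rw [ValuationSubring.mem_comap, ValuationSubring.mem_comap, ValuationSubring.mem_comap]
  show w (α a) ∈ O ↔ β a ∈ O
  rw [hw]

end BetaRank

end Fermat.Agent.S35.H57
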