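/-
S35, geometry side (helper57): (L6b') the crossing points of the chart at infinity, by transfer
from the finite chart.

* `pointFrob₁_of_leaves` : the point types on the finite chart from the two point leaves.
* `crossing_of_pointFrob_of_both` : a point on both components with a point type is a crossing
  point.
* `crossFrob₂_of_one` : for a two-chart model `D`, `CrossFrob₂ D S₀ Q m` from `D.Cusp`,
  `OneCompFrob D m` and `CrossFrob₁ D S₀ Q m` (through `pointFrob_of_glue`).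
* `crossFrob₂_stdV` : the same on the concrete model `H30.stdV`, for `S₀ = frobSq σ`.
* `crossFrobLeaf₂_of_one` : the leaf `CrossFrobLeaf₂` of `S35/H27/FrobLeaves.lean` from
  `CrossFrobLeaf₁`, `OneCompFrobLeaf` and the leaves `SemiLeaf`, `CuspLeaf` of Program B'.
* `crossFrobLeafB₂_of_one` : the relative form (`S35/H27/FrobRootB.lean`):
  `CrossFrobLeafB₁ B → OneCompFrobLeafB B → SemiLeafB B → CuspLeafB B → CrossFrobLeafB₂ B`.
* `frobModelStatement_of_sevenLeaves` : `FrobModelStatement` from the four leaves of Program B'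
  at the standard base function and the THREE remaining S35 leaves (L3), (L6a), (L6b).
-/
import Fermat.Agent.S34.H30.ChartClose
import Fermat.Agent.S35.H27.FrobStd
import Fermat.Agent.S35.H65.FrobDataStd
import Fermat.Agent.S35.H57.PtTransfer

set_option autoImplicit false
set_option linter.style.haveILetI false
set_option linter.unusedSectionVars false

open AlgebraicCurve ModularCurve

noncomputable section

namespace Fermat.Agent.S35.H57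

open Fermat.Agent.S34.H27 Fermat.Agent.S34.H30 Fermat.Agent.S34.H10 Fermat.Agent.S34.H7
  Fermat.Agent.S18 Fermat.Agent.S18.H74 Fermat.Agent.S18.H19 Fermat.Agent.S34.H19
  Fermat.Agent.S34.H61 Fermat.Agent.S34.H64 Fermat.Agent.S34.H77 Fermat.Agent.S35.H27

/-- A point on both components which has a point type is a crossing point. -/
theorem crossing_of_pointFrob_of_both {A₀ F₀ : Type} [CommRing A₀] [Field F₀] [Algebra A₀ F₀]
    (C : Subalgebra A₀ F₀) (V₁ V₂ : ValuationSubring F₀) (S : F₀ ≃+* F₀) (Q m : ℕ)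
    (x : Ideal ↥C) (hB : Both V₁ V₂ C x) (h : PointFrob C V₁ V₂ S Q m x) :
    Crossing C V₁ V₂ S Q m x := by
  rcases h with ⟨⟨t, ht, htV⟩, _⟩ | ⟨⟨t, ht, htV⟩, _⟩ | h
  · exact absurd (hB.2 t htV) ht
  · exact absurd (hB.1 t htV) ht
  · exact h

/-- The point types on the finite chart from the two point leaves. -/
theorem pointFrob₁_of_leaves {M : ℕ} (D : VData M) (S₀ : D.F₀ ≃+* D.F₀) (Q m : ℕ)
    (hOneF : OneCompFrob D m) (hCr₁ : CrossFrob₁ D S₀ Q m) :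
    ∀ x : Ideal ↥D.C₁, x.IsMaximal → algebraMap D.A₀ ↥D.C₁ D.ϖ ∈ x →
      PointFrob D.C₁ D.V₁ D.V₂ S₀ Q m x := by
  classical
  intro x hx hϖx
  by_cases hB : Both D.V₁ D.V₂ D.C₁ x
  · exact Or.inr (Or.inr (hCr₁ x hx hϖx hB))
  · rcases hOneF.1 x hx hϖx hB with h | h
    · exact Or.inl h
    · exact Or.inr (Or.inl h)

/-- **The crossing points of the chart at infinity**, for a two-chart model: they are not cusps,
so their point type comes from the finite chart. -/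
theorem crossFrob₂_of_one {M : ℕ} (D : VData M) (hirr : Irreducible D.ϖ) (hj0 : D.j ≠ 0)
    (hj₁ : D.j ∈ D.C₁) (hj₂ : D.j⁻¹ ∈ D.C₂)
    (hint₂ : ∀ c ∈ D.C₂, IsIntegral (Algebra.adjoin D.A₀ ({D.j⁻¹} : Set D.F₀)) c)
    (hglue : ∀ y : D.F₀, (∃ n : ℕ, D.j ^ n * y ∈ D.C₁) ↔ (∃ n : ℕ, D.j⁻¹ ^ n * y ∈ D.C₂))
    (hle₁₁ : ∀ c ∈ D.C₁, c ∈ D.V₁) (hle₁₂ : ∀ c ∈ D.C₁, c ∈ D.V₂)
    (hle₂₁ : ∀ c ∈ D.C₂, c ∈ D.V₁) (hle₂₂ : ∀ c ∈ D.C₂, c ∈ D.V₂)
    (S₀ : D.F₀ ≃+* D.F₀) (hSC₂ : ∀ c : D.F₀, S₀ c ∈ D.C₂ ↔ c ∈ D.C₂) (Q m : ℕ)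
    (hCusp : D.Cusp) (hOneF : OneCompFrob D m) (hCr₁ : CrossFrob₁ D S₀ Q m) :
    CrossFrob₂ D S₀ Q m := by
  intro x hx hϖx hB
  have hjx : (⟨D.j⁻¹, hj₂⟩ : ↥D.C₂) ∉ x := fun hjx => hCusp x hx hϖx ⟨_, hjx, rfl⟩ hB
  exact crossing_of_pointFrob_of_both D.C₂ D.V₁ D.V₂ S₀ Q m x hB
    (pointFrob_of_glue D.ϖ hirr D.j hj0 D.C₁ D.C₂ hj₁ hj₂ hint₂ hglue D.V₁ D.V₂ hle₁₁ hle₁₂
      hle₂₁ hle₂₂ S₀ hSC₂ Q m (pointFrob₁_of_leaves D S₀ Q m hOneF hCr₁) x hx hϖx hjx)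

/-- The crossing points of the chart at infinity of the concrete model, from the facts about
the concrete model. -/
theorem crossFrob₂_stdV {M q : ℕ} [NeZero M] [Fact q.Prime] (hqM : ¬ q ∣ M)
    (A : ValuationSubring Kb) (hA : A.LiesOverPrime q) (hAtop : A ≠ ⊤)
    (O₁ : ValuationSubring (FN (M * q))) (w : FN (M * q) ≃+* FN (M * q))
    (hTG : TwoGauss M q hqM A hA O₁ w) (x₀ : FN M) (hx₀ : IsBase M q hqM A hA x₀)
    (K₀ : IntermediateField ℚ Kb) [FiniteDimensional ℚ K₀] [Normal ℚ K₀]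
    (ϖ : ↥(A.comap (algebraMap K₀ Kb))) (hϖ : Irreducible ϖ)
    (j : ↥(ratForm (M * q) K₀)) (hj : (j : FN (M * q)) = heckeAlphaBar Kb M q x₀)
    (σ σ' : Kb ≃ₐ[ℚ] Kb) (hσ : A.IsFrobeniusAt σ q) (m : ℕ)
    (hsemi : (stdV M q A hAtop O₁ w K₀ ϖ j σ').Semi)
    (hcusp : (stdV M q A hAtop O₁ w K₀ ϖ j σ').Cusp)
    (honeF : OneCompFrob (stdV M q A hAtop O₁ w K₀ ϖ j σ') m)
    (hcr₁ : CrossFrob₁ (stdV M q A hAtop O₁ w K₀ ϖ j σ') (frobSq (M * q) K₀ σ) (q ^ 2) m) :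
    CrossFrob₂ (stdV M q A hAtop O₁ w K₀ ϖ j σ') (frobSq (M * q) K₀ σ) (q ^ 2) m := by
  letI := algComap (A.comap (algebraMap K₀ Kb)) (ratForm (M * q) K₀)
  haveI := Fermat.Agent.S34.H78.isDVR_comap hAtop K₀
  haveI := Fermat.Agent.S34.H78.faithfulSMul_comap A K₀ (ratForm (M * q) K₀)
  have hch := chartLeaf M q hqM A hA x₀ hx₀ K₀ j hj
  have hCG := Fermat.Agent.S34.H44.chartsGood j hch.1 hch.2
  have hjrat : (j : FN (M * q)) ∈ Set.range (ratEmb (M * q)) := by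
    rw [hj]
    exact hx₀.alpha_rat
  have hFD := Fermat.Agent.S35.H65.frobData_stdV_holds hqM A hA hAtop O₁ w hTG K₀ ϖ hϖ j hjrat
    σ' σ hσ
  exact crossFrob₂_of_one (stdV M q A hAtop O₁ w K₀ ϖ j σ') hϖ hCG.j_ne hCG.j_mem₁ hCG.j_mem₂
    (fun _ h => h) hCG.glue hsemi.le₁₁ hsemi.le₁₂ hsemi.le₂₁ hsemi.le₂₂ (frobSq (M * q) K₀ σ)
    hFD.S_mem₂ (q ^ 2) m hcusp honeF hcr₁

/-- **Leaf (L6b') from (L6a), (L6b)** and the leaves (M3), (M6c) of Program B'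
(unrelativised forms of `S35/H27/FrobLeaves.lean` and `S34/H30/Leaves.lean`). -/
theorem crossFrobLeaf₂_of_one (hsemi : SemiLeaf) (hcusp : CuspLeaf) (honeF : OneCompFrobLeaf)
    (hcr₁ : CrossFrobLeaf₁) : CrossFrobLeaf₂ := by
  intro M q _ _ hqM A hA hAtop O₁ w hTG x₀ hx₀ K₀ _ _ ϖ hϖ j hj σ σ' hσ m hm
  exact crossFrob₂_stdV hqM A hA hAtop O₁ w hTG x₀ hx₀ K₀ ϖ hϖ j hj σ σ' hσ m
    (hsemi M q hqM A hA hAtop O₁ w hTG x₀ hx₀ K₀ ϖ hϖ j hj σ')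
    (hcusp M q hqM A hA hAtop O₁ w hTG x₀ hx₀ K₀ ϖ hϖ j hj σ')
    (honeF M q hqM A hA hAtop O₁ w hTG x₀ hx₀ K₀ ϖ hϖ j hj σ' m hm)
    (hcr₁ M q hqM A hA hAtop O₁ w hTG x₀ hx₀ K₀ ϖ hϖ j hj σ σ' hσ m hm)

/-- **Leaf (L6b'), relative form, from (L6a), (L6b)** and the relative leaves (M3), (M6c) of
Program B' (`S34/H77/RootB.lean`). -/
theorem crossFrobLeafB₂_of_one (B : (M q : ℕ) → FN M → Prop) (hcr₁ : CrossFrobLeafB₁ B)
    (honeF : OneCompFrobLeafB B) (hsemi : SemiLeafB B) (hcusp : CuspLeafB B) :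
    CrossFrobLeafB₂ B := by
  intro M q _ _ hqM hlev A hA hAtop O₁ w hTG x₀ hx₀ hB K₀ _ _ ϖ hϖ j hj σ σ' hσ m hm
  exact crossFrob₂_stdV hqM A hA hAtop O₁ w hTG x₀ hx₀ K₀ ϖ hϖ j hj σ σ' hσ m
    (hsemi M q hqM hlev A hA hAtop O₁ w hTG x₀ hx₀ hB K₀ ϖ hϖ j hj σ')
    (hcusp M q hqM hlev A hA hAtop O₁ w hTG x₀ hx₀ hB K₀ ϖ hϖ j hj σ')
    (honeF M q hqM hlev A hA hAtop O₁ w hTG x₀ hx₀ hB K₀ ϖ hϖ j hj σ' m hm)
    (hcr₁ M q hqM hlev A hA hAtop O₁ w hTG x₀ hx₀ hB K₀ ϖ hϖ j hj σ σ' hσ m hm)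

/-- **The root of S35-GEO at the standard base function, with the leaf (L6b') discharged**:
`FrobModelStatement` from the four leaves of Program B' and the three S35 leaves (L3), (L6a),
(L6b). -/
theorem frobModelStatement_of_sevenLeaves (hsemi : SemiLeafB StdB) (hone : OneCompLeafB StdB)
    (hcusp : CuspLeafB StdB) (hcross : CrossLeafB StdB) (hred : FrobRedLeafB StdB)
    (honeF : OneCompFrobLeafB StdB) (hcr₁ : CrossFrobLeafB₁ StdB) : FrobModelStatement :=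
  frobModelStatement_of_pointLeaves hsemi hone hcusp hcross hred honeF hcr₁
    (crossFrobLeafB₂_of_one StdB hcr₁ honeF hsemi hcusp)

end Fermat.Agent.S35.H57
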