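/-
S35 geometry, leaf (MAT) (helper57), in the shape requested by helper14 for the shifted norm
formula: a matrix `A` over `V` whose row `none` is `(0, …, 0, v₁)` modulo `m_V` and whose
`q × q` block represents multiplication by `w` on `1, y, …, y^(q-1)` modulo `m₂`, where
`w ^ q ≡ v₂ (mod m₂)`, has determinant `≡ v₁ * v₂ (mod m_V)`.
-/
import Mathlib
import Fermat.Agent.S35.H57.NormFormula

set_option autoImplicit false

namespace Fermat.Agent.S35.H57

open Fermat.Agent.S34.H57

section MatrixLocal

variable {R : Type*} [CommRing R] [IsLocalRing R]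

/-- Block triangular version of `det_sub_mem`: only the row `none` is assumed to vanish
modulo the maximal ideal off the diagonal. -/
lemma det_sub_mem_of_row {q : ℕ} (hq : q.Prime) (hqR : (q : R) ∈ IsLocalRing.maximalIdeal R)
    (M : Matrix (Option (Fin q)) (Option (Fin q)) R) (a₁ a₂ : R)
    (h2 : M none none - a₁ ∈ IsLocalRing.maximalIdeal R)
    (h3 : ∀ j, M none (some j) ∈ IsLocalRing.maximalIdeal R)
    (h4 : ∀ i j, ((Matrix.of fun i j : Fin q => M (some i) (some j)) ^ q) i j -
      (if i = j then a₂ else 0) ∈ IsLocalRing.maximalIdeal R) :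
    M.det - a₁ * a₂ ∈ IsLocalRing.maximalIdeal R := by
  classical
  set res := IsLocalRing.residue R with hres
  set C : Matrix (Fin q) (Fin q) R := Matrix.of fun i j : Fin q => M (some i) (some j) with hC
  have hres0 : ∀ {x : R}, x ∈ IsLocalRing.maximalIdeal R → res x = 0 := fun h =>
    (IsLocalRing.residue_eq_zero_iff _).2 h
  have hq0 : (q : IsLocalRing.ResidueField R) = 0 := by
    have := hres0 hqR
    rwa [map_natCast] at this
  have hCq : (res.mapMatrix C) ^ q = res a₂ • (1 : Matrix (Fin q) (Fin q) _) := by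
    rw [← map_pow]
    ext i j
    have := hres0 (h4 i j)
    rw [map_sub, sub_eq_zero] at this
    rw [RingHom.mapMatrix_apply, Matrix.map_apply, this, Matrix.smul_apply, Matrix.one_apply]
    split_ifs <;> simp
  have hdetC : (res.mapMatrix C).det = res a₂ := by
    apply eq_of_pow_eq_pow_char hq hq0
    rw [← Matrix.det_pow, hCq, Matrix.det_smul, Matrix.det_one, mul_one, Fintype.card_fin]
  have hblock : Matrix.reindex (Equiv.optionEquivSumPUnit.{0} (Fin q))
      (Equiv.optionEquivSumPUnit.{0} (Fin q)) (res.mapMatrix M) =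
      Matrix.fromBlocks (res.mapMatrix C) (Matrix.of fun (i : Fin q) (_ : PUnit.{1}) =>
        res (M (some i) none)) 0 (Matrix.of fun _ _ : PUnit.{1} => res a₁) := by
    ext (i | i) (j | j)
    · simp [C]
    · simp only [Matrix.reindex_apply, Matrix.submatrix_apply, Equiv.optionEquivSumPUnit_symm_inl,
        Equiv.optionEquivSumPUnit_symm_inr, RingHom.mapMatrix_apply, Matrix.map_apply,
        Matrix.fromBlocks_apply₁₂, Matrix.of_apply]
    · simp only [Matrix.reindex_apply, Matrix.submatrix_apply, Equiv.optionEquivSumPUnit_symm_inl,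
        Equiv.optionEquivSumPUnit_symm_inr, RingHom.mapMatrix_apply, Matrix.map_apply,
        Matrix.fromBlocks_apply₂₁, Matrix.zero_apply]
      exact hres0 (h3 j)
    · simp only [Matrix.reindex_apply, Matrix.submatrix_apply,
        Equiv.optionEquivSumPUnit_symm_inr, RingHom.mapMatrix_apply, Matrix.map_apply,
        Matrix.fromBlocks_apply₂₂, Matrix.of_apply]
      have := hres0 h2
      rwa [map_sub, sub_eq_zero] at this
  have hdet : res M.det = res a₂ * res a₁ := by
    rw [RingHom.map_det, ← Matrix.det_reindex_self (Equiv.optionEquivSumPUnit.{0} (Fin q)), hblock,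
      Matrix.det_fromBlocks_zero₂₁, hdetC, Matrix.det_unique]
    rfl
  rw [← IsLocalRing.residue_eq_zero_iff, map_sub, map_mul, ← hres, hdet, mul_comm, sub_self]

end MatrixLocal

section Mat

variable {K : Type*} {L : Type*} [Field K] [Field L] [Algebra K L]

/-- **(MAT)**: the determinant congruence behind the norm formula, for an arbitrary matrix
with entries in `V`. -/
theorem det_sub_mem_nonunits {V : ValuationSubring K} {O₂ : ValuationSubring L}
    (h₂ : O₂.comap (algebraMap K L) = V) {q : ℕ} (hq : q.Prime) (hqV : (q : K) ∈ V.nonunits)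
    {y : L} (hy : y ∈ O₂) (hyq : ∃ v ∈ V, y ^ q - algebraMap K L v ∈ O₂.nonunits)
    (hyn : ∀ v ∈ V, y - algebraMap K L v ∉ O₂.nonunits)
    (A : Matrix (Option (Fin q)) (Option (Fin q)) K) (hA : ∀ i j, A i j ∈ V) {v₁ v₂ : K}
    (hv₁ : v₁ ∈ V) (hv₂ : v₂ ∈ V) {w : L} (hw : w ∈ O₂)
    (hw2 : w ^ q - algebraMap K L v₂ ∈ O₂.nonunits)
    (ha : ∀ j : Fin q, A none (some j) ∈ V.nonunits) (hb : A none none - v₁ ∈ V.nonunits)
    (hc : ∀ j : Fin q, w * y ^ (j : ℕ) -
      ∑ i : Fin q, algebraMap K L (A (some i) (some j)) * y ^ (i : ℕ) ∈ O₂.nonunits) :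
    A.det - v₁ * v₂ ∈ V.nonunits := by
  classical
  obtain ⟨v, hv, hyv⟩ := hyq
  rw [ValuationSubring.mem_nonunits_iff] at hw2
  let MV : Matrix (Option (Fin q)) (Option (Fin q)) V := Matrix.of fun i j => ⟨A i j, hA i j⟩
  have hM : A = V.subtype.mapMatrix MV := by
    ext i j
    rfl
  have hdetA : A.det = ((MV.det : V) : K) := by
    conv_lhs => rw [hM]
    rw [← RingHom.map_det]
    rfl
  have c3 : ∀ j : Fin q, MV none (some j) ∈ IsLocalRing.maximalIdeal V := fun j =>
    ValuationSubring.coe_mem_nonunits_iff.1 (ha j)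
  have c2 : MV none none - ⟨v₁, hv₁⟩ ∈ IsLocalRing.maximalIdeal V :=
    ValuationSubring.coe_mem_nonunits_iff.1 hb
  have c4 : ∀ j : Fin q, O₂.valuation (w * y ^ (j : ℕ) -
      ∑ i : Fin q, algebraMap K L ((MV (some i) (some j) : V) : K) * y ^ (i : ℕ)) < 1 := fun j =>
    (ValuationSubring.mem_nonunits_iff O₂).1 (hc j)
  have c6 : ∀ i j : Fin q, ((Matrix.of fun i j : Fin q => MV (some i) (some j)) ^ q) i j -
      (if i = j then (⟨v₂, hv₂⟩ : V) else 0) ∈ IsLocalRing.maximalIdeal V := by
    intro i j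
    have hpow := val_pow_mul_sub_lt_one h₂ (y := y) hw
      (Matrix.of fun i j : Fin q => MV (some i) (some j)) c4 q j
    set D : Matrix (Fin q) (Fin q) V := (Matrix.of fun i j : Fin q => MV (some i) (some j)) ^ q
      with hD
    have hcV : ∀ k : Fin q, ((D k j : V) : K) - (if k = j then v₂ else 0) ∈ V := fun k =>
      sub_mem (D k j).2 (by split_ifs; exacts [hv₂, V.zero_mem])
    have hs : ∑ k : Fin q, algebraMap K L (((D k j : V) : K) - (if k = j then v₂ else 0)) *
        y ^ (k : ℕ) ∈ O₂.nonunits := by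
      rw [ValuationSubring.mem_nonunits_iff]
      have e : ∑ k : Fin q, algebraMap K L (((D k j : V) : K) - (if k = j then v₂ else 0)) *
          y ^ (k : ℕ) = y ^ (j : ℕ) * (w ^ q - algebraMap K L v₂) - (w ^ q * y ^ (j : ℕ) -
            ∑ k : Fin q, algebraMap K L ((D k j : V) : K) * y ^ (k : ℕ)) := by
        have e' : ∑ k : Fin q, algebraMap K L (if k = j then v₂ else 0) * y ^ (k : ℕ) =
            algebraMap K L v₂ * y ^ (j : ℕ) := by
          rw [Finset.sum_eq_single j]
          · rw [if_pos rfl]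
          · intro k _ hkj
            rw [if_neg hkj, map_zero, zero_mul]
          · intro h
            exact absurd (Finset.mem_univ j) h
        simp only [map_sub, sub_mul, Finset.sum_sub_distrib]
        rw [e']
        ring
      rw [e]
      exact Valuation.map_sub_lt _
        (val_mul_lt_one O₂ ((O₂.valuation_le_one_iff _).2 (pow_mem hy _)) hw2) hpow
    have hY := coeff_mem_nonunits_of_sum_mem h₂ hq hqV hy hv hyv hyn
      (fun k => ((D k j : V) : K) - (if k = j then v₂ else 0)) hcV hs i
    rw [← ValuationSubring.coe_mem_nonunits_iff]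
    have e'' : ((D i j - (if i = j then (⟨v₂, hv₂⟩ : V) else 0) : V) : K) =
        ((D i j : V) : K) - (if i = j then v₂ else 0) := by
      split_ifs <;> rfl
    rw [e'']
    exact hY
  have hqR : ((q : ℕ) : V) ∈ IsLocalRing.maximalIdeal V := by
    rw [← ValuationSubring.coe_mem_nonunits_iff]
    exact hqV
  have hdet := det_sub_mem_of_row hq hqR MV ⟨v₁, hv₁⟩ ⟨v₂, hv₂⟩ c2 c3 c6
  rw [hdetA]
  rw [← ValuationSubring.coe_mem_nonunits_iff] at hdet
  exact hdet

/-- The determinant in `det_sub_mem_nonunits` lies in `V`. -/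
lemma det_mem_of_forall_mem {V : ValuationSubring K} {n : Type*} [Fintype n] [DecidableEq n]
    (A : Matrix n n K) (hA : ∀ i j, A i j ∈ V) : A.det ∈ V := by
  rw [Matrix.det_apply]
  refine sum_mem fun σ _ => ?_
  have hprod : ∏ i, A (σ i) i ∈ V := prod_mem fun i _ => hA _ _
  rcases Int.units_eq_one_or (Equiv.Perm.sign σ) with h | h
  · rw [h, one_smul]
    exact hprod
  · rw [h, Units.neg_smul, one_smul]
    exact neg_mem hprod

end Mat

end Fermat.Agent.S35.H57
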