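/-
S35 geometry, leaf (N1-Z) (helper57): the shifted norm formula in the two-extension setting.

For `u ∈ L` with `u ∈ O₁`, `u / π ^ k ∈ O₂` (`k ∈ ℤ`, `π` a uniformiser of `V`),
`u ≡ v₁ (mod m₁)` and `(u / π ^ k) ^ q ≡ v₂ (mod m₂)`:

  `N_{L/K}(u) / π ^ (q k) ≡ v₁ · v₂  (mod m_V)`.

Proof: multiplicativity of the norm and one explicit element `t = e² + π (1 - e²)`,
`e = 1 - θ`, with `t ≡ 1 (mod m₁)`, `t / π ≡ 1 (mod m₂)` and `N(t) = π ^ q · δ`, `δ ≡ 1`;
the norm of `t` is computed in the basis `W` of `exists_basis`, where the matrix of `t` is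
`A' · diag(π, …, π, 1)` with `A' ≡` (unipotent block triangular) modulo `m_V`.
-/
import Mathlib
import Fermat.Agent.S35.H57.NormFormula

set_option autoImplicit false

namespace Fermat.Agent.S35.H57

open Fermat.Agent.S34.H57

universe u v

section Pure

variable {R : Type*} [CommRing R] [IsLocalRing R]

/-- A matrix over a local ring which is unipotent block triangular modulo the maximal ideal
has determinant `≡ 1`. -/
lemma det_sub_one_mem {q : ℕ} (M : Matrix (Option (Fin q)) (Option (Fin q)) R)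
    (h1 : ∀ i, M (some i) none ∈ IsLocalRing.maximalIdeal R)
    (h2 : M none none - 1 ∈ IsLocalRing.maximalIdeal R)
    (h4 : ∀ i j, M (some i) (some j) - (if i = j then 1 else 0) ∈ IsLocalRing.maximalIdeal R) :
    M.det - 1 ∈ IsLocalRing.maximalIdeal R := by
  classical
  set res := IsLocalRing.residue R with hres
  have hres0 : ∀ {x : R}, x ∈ IsLocalRing.maximalIdeal R → res x = 0 := fun h =>
    (IsLocalRing.residue_eq_zero_iff _).2 h
  have hblock : Matrix.reindex (Equiv.optionEquivSumPUnit.{0} (Fin q))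
      (Equiv.optionEquivSumPUnit.{0} (Fin q)) (res.mapMatrix M) =
      Matrix.fromBlocks (1 : Matrix (Fin q) (Fin q) (IsLocalRing.ResidueField R)) 0
        (Matrix.of fun (_ : PUnit.{1}) (j : Fin q) => res (M none (some j)))
        (1 : Matrix PUnit.{1} PUnit.{1} (IsLocalRing.ResidueField R)) := by
    ext (i | i) (j | j)
    · simp only [Matrix.reindex_apply, Matrix.submatrix_apply, Equiv.optionEquivSumPUnit_symm_inl,
        RingHom.mapMatrix_apply, Matrix.map_apply, Matrix.fromBlocks_apply₁₁]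
      have h := hres0 (h4 i j)
      rw [map_sub, sub_eq_zero] at h
      rw [h, Matrix.one_apply]
      split_ifs <;> simp
    · simp only [Matrix.reindex_apply, Matrix.submatrix_apply, Equiv.optionEquivSumPUnit_symm_inl,
        Equiv.optionEquivSumPUnit_symm_inr, RingHom.mapMatrix_apply, Matrix.map_apply,
        Matrix.fromBlocks_apply₁₂, Matrix.zero_apply]
      exact hres0 (h1 i)
    · simp only [Matrix.reindex_apply, Matrix.submatrix_apply, Equiv.optionEquivSumPUnit_symm_inl,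
        Equiv.optionEquivSumPUnit_symm_inr, RingHom.mapMatrix_apply, Matrix.map_apply,
        Matrix.fromBlocks_apply₂₁, Matrix.of_apply]
    · simp only [Matrix.reindex_apply, Matrix.submatrix_apply,
        Equiv.optionEquivSumPUnit_symm_inr, RingHom.mapMatrix_apply, Matrix.map_apply,
        Matrix.fromBlocks_apply₂₂]
      have h := hres0 h2
      rw [map_sub, map_one, sub_eq_zero] at h
      rw [h, Matrix.one_apply_eq]
  have hdet : res M.det = 1 := by
    rw [RingHom.map_det, ← Matrix.det_reindex_self (Equiv.optionEquivSumPUnit.{0} (Fin q)), hblock,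
      Matrix.det_fromBlocks_zero₁₂, Matrix.det_one, Matrix.det_one, one_mul]
  rw [← IsLocalRing.residue_eq_zero_iff, map_sub, map_one, ← hres, hdet, sub_self]

end Pure

section Val

variable {F : Type*} [Field F]

lemma val_eq_one_of_sub_one (O : ValuationSubring F) {x : F} (hx : O.valuation (x - 1) < 1) :
    O.valuation x = 1 := by
  have e : x = 1 + (x - 1) := by ring
  rw [e]
  exact Valuation.map_one_add_of_lt _ hx

lemma ne_zero_of_sub_one (O : ValuationSubring F) {x : F} (hx : O.valuation (x - 1) < 1) :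
    x ≠ 0 := by
  rintro rfl
  have h := val_eq_one_of_sub_one O hx
  rw [map_zero] at h
  exact zero_ne_one h

lemma mem_of_sub_one (O : ValuationSubring F) {x : F} (hx : O.valuation (x - 1) < 1) :
    x ∈ O :=
  (O.valuation_le_one_iff _).1 (val_eq_one_of_sub_one O hx).le

lemma val_inv_sub_one_lt_one (O : ValuationSubring F) {x : F} (hx : O.valuation (x - 1) < 1) :
    O.valuation (x⁻¹ - 1) < 1 := by
  have h1 := val_eq_one_of_sub_one O hx
  have hx0 : x ≠ 0 := ne_zero_of_sub_one O hx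
  have e : x⁻¹ - 1 = -(x - 1) * x⁻¹ := by
    field_simp
    ring
  rw [e, map_mul, map_inv₀, h1, inv_one, mul_one, Valuation.map_neg]
  exact hx

lemma val_zpow_sub_one_lt_one (O : ValuationSubring F) {x : F} (hx : O.valuation (x - 1) < 1)
    (k : ℤ) : O.valuation (x ^ k - 1) < 1 := by
  have hnat : ∀ {a : F}, O.valuation (a - 1) < 1 → ∀ n : ℕ, O.valuation (a ^ n - 1) < 1 := by
    intro a ha n
    have h := val_pow_sub_pow_lt_one O (mem_of_sub_one O ha) O.one_mem ha n
    rwa [one_pow] at h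
  rcases k.eq_nat_or_neg with ⟨n, rfl | rfl⟩
  · rw [zpow_natCast]
    exact hnat hx n
  · rw [zpow_neg, zpow_natCast, ← inv_pow]
    exact hnat (val_inv_sub_one_lt_one O hx) n

lemma div_mem_of_val_le (O : ValuationSubring F) {x p : F} (hp : p ≠ 0)
    (h : O.valuation x ≤ O.valuation p) : x / p ∈ O := by
  rw [← O.valuation_le_one_iff, map_div₀]
  exact (div_le_one₀ (zero_lt_iff.2 ((Valuation.ne_zero_iff _).2 hp))).2 h

end Val

section NormZpow

variable {K : Type u} {L : Type v} [Field K] [Field L] [Algebra K L]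

lemma norm_zpow {t : L} (ht : t ≠ 0) (k : ℤ) :
    Algebra.norm K (t ^ k) = Algebra.norm K t ^ k := by
  have hinv : Algebra.norm K t⁻¹ = (Algebra.norm K t)⁻¹ := by
    refine eq_inv_of_mul_eq_one_left ?_
    rw [← map_mul, inv_mul_cancel₀ ht, map_one]
  rcases k.eq_nat_or_neg with ⟨n, rfl | rfl⟩
  · rw [zpow_natCast, zpow_natCast, map_pow]
  · rw [zpow_neg, zpow_natCast, zpow_neg, zpow_natCast, ← inv_pow, map_pow, hinv, inv_pow]

end NormZpow

section Shift

variable {K : Type u} {L : Type v} [Field K] [Field L] [Algebra K L]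
variable {V : ValuationSubring K}

/-- The special element: `t ≡ 1 (mod m₁)`, `t / π ≡ 1 (mod m₂)` and `N(t) = π ^ q · δ` with
`δ ≡ 1 (mod m_V)`, relative to a basis `W` as produced by `exists_basis`. -/
theorem exists_shift_of_basis {O₁ O₂ : ValuationSubring L}
    (h₁ : O₁.comap (algebraMap K L) = V) (h₂ : O₂.comap (algebraMap K L) = V)
    {q : ℕ} (hq : q.Prime) (hqV : (q : K) ∈ V.nonunits)
    {y : L} (hy : y ∈ O₂) {v : K} (hv : v ∈ V) (hyv : y ^ q - algebraMap K L v ∈ O₂.nonunits)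
    (hyn : ∀ w ∈ V, y - algebraMap K L w ∉ O₂.nonunits)
    {π : K} (hπ0 : π ≠ 0) (hπV : π ∈ V.nonunits)
    {θ y' : L} (hθ1 : O₁.valuation θ ≤ O₁.valuation (algebraMap K L π))
    (hθ2 : O₂.valuation (θ - 1) ≤ O₂.valuation (algebraMap K L π))
    (hy'1 : y' ∈ O₁) (hy'2 : y' ∈ O₂) (hyy : O₂.valuation (y' - y) < 1)
    (b : Module.Basis (Option (Fin q)) K L) (hb : ⇑b = fam θ y' q)
    (hcoord : ∀ x : L, x ∈ O₁ → x ∈ O₂ → ∀ o, b.repr x o ∈ V) :
    ∃ t : L, O₁.valuation (t - 1) < 1 ∧ O₂.valuation (t / algebraMap K L π - 1) < 1 ∧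
      ∃ δ ∈ V, δ - 1 ∈ V.nonunits ∧ Algebra.norm K t = π ^ q * δ := by
  classical
  set P := algebraMap K L π with hP
  have hP0 : P ≠ 0 := (_root_.map_ne_zero _).2 hπ0
  have hP1 : O₁.valuation P < 1 := (algebraMap_val_lt_one_iff h₁ π).2 hπV
  have hP2 : O₂.valuation P < 1 := (algebraMap_val_lt_one_iff h₂ π).2 hπV
  have hθ1' : O₁.valuation θ < 1 := lt_of_le_of_lt hθ1 hP1
  have hθ2' : O₂.valuation (θ - 1) < 1 := lt_of_le_of_lt hθ2 hP2
  have hPm1 : P ∈ O₁ := (O₁.valuation_le_one_iff _).1 hP1.le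
  have hPm2 : P ∈ O₂ := (O₂.valuation_le_one_iff _).1 hP2.le
  have hθm1 : θ ∈ O₁ := (O₁.valuation_le_one_iff _).1 hθ1'.le
  have hθm2 : θ ∈ O₂ := mem_of_sub_one O₂ hθ2'
  set e := 1 - θ with he
  have he1 : O₁.valuation (e - 1) < 1 := by
    have e' : e - 1 = -θ := by
      rw [he]
      ring
    rw [e', Valuation.map_neg]
    exact hθ1'
  have he2 : O₂.valuation e < 1 := by
    rw [he, Valuation.map_sub_swap]
    exact hθ2'
  have he2le : O₂.valuation e ≤ O₂.valuation P := by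
    rw [he, Valuation.map_sub_swap]
    exact hθ2
  have hem1 : e ∈ O₁ := sub_mem O₁.one_mem hθm1
  have hem2 : e ∈ O₂ := sub_mem O₂.one_mem hθm2
  -- `z = e θ / P`
  set z := e * θ / P with hz
  have hzm1 : z ∈ O₁ := by
    have e' : z = e * (θ / P) := by
      rw [hz, mul_div_assoc]
    rw [e']
    exact mul_mem hem1 (div_mem_of_val_le O₁ hP0 hθ1)
  have hzm2 : z ∈ O₂ := by
    have e' : z = e / P * θ := by
      rw [hz]
      ring
    rw [e']
    exact mul_mem (div_mem_of_val_le O₂ hP0 he2le) hθm2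
  -- the element `t`
  set t := e ^ 2 + P * (1 - e ^ 2) with ht
  have htm1 : t ∈ O₁ :=
    add_mem (pow_mem hem1 2) (mul_mem hPm1 (sub_mem O₁.one_mem (pow_mem hem1 2)))
  have htm2 : t ∈ O₂ :=
    add_mem (pow_mem hem2 2) (mul_mem hPm2 (sub_mem O₂.one_mem (pow_mem hem2 2)))
  have ht1 : O₁.valuation (t - 1) < 1 := by
    have e' : t - 1 = (e + 1) * (1 - P) * (e - 1) := by
      rw [ht]
      ring
    rw [e']
    exact val_mul_lt_one O₁ ((O₁.valuation_le_one_iff _).2
      (mul_mem (add_mem hem1 O₁.one_mem) (sub_mem O₁.one_mem hPm1))) he1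
  have ht2 : O₂.valuation (t / P - 1) < 1 := by
    have e' : t / P - 1 = (e / P - e) * e := by
      rw [ht]
      field_simp
      ring
    rw [e']
    exact val_mul_lt_one O₂ ((O₂.valuation_le_one_iff _).2
      (sub_mem (div_mem_of_val_le O₂ hP0 he2le) hem2)) he2
  refine ⟨t, ht1, ht2, ?_⟩
  -- the columns
  have hbnone : b none = e := by
    rw [hb]
    rfl
  have hbsome : ∀ j : Fin q, b (some j) = y' ^ (j : ℕ) * θ := fun j => by
    rw [hb]
    rfl
  set X := t * e with hX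
  set Z : Fin q → L := fun j => (e * z + (1 - e ^ 2) * θ) * y' ^ (j : ℕ) with hZ
  have hXm1 : X ∈ O₁ := mul_mem htm1 hem1
  have hXm2 : X ∈ O₂ := mul_mem htm2 hem2
  have hZm1 : ∀ j, Z j ∈ O₁ := fun j =>
    mul_mem (add_mem (mul_mem hem1 hzm1) (mul_mem (sub_mem O₁.one_mem (pow_mem hem1 2)) hθm1))
      (pow_mem hy'1 _)
  have hZm2 : ∀ j, Z j ∈ O₂ := fun j =>
    mul_mem (add_mem (mul_mem hem2 hzm2) (mul_mem (sub_mem O₂.one_mem (pow_mem hem2 2)) hθm2))
      (pow_mem hy'2 _)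
  have hcolsome : ∀ j : Fin q, t * b (some j) = π • Z j := by
    intro j
    rw [hbsome, Algebra.smul_def, ← hP, hZ, ht, hz]
    field_simp
  set col : Option (Fin q) → L := fun o => o.elim X Z with hcol
  have hcolm1 : ∀ o, col o ∈ O₁ := by
    intro o
    cases o with
    | none => exact hXm1
    | some j => exact hZm1 j
  have hcolm2 : ∀ o, col o ∈ O₂ := by
    intro o
    cases o with
    | none => exact hXm2
    | some j => exact hZm2 j
  let AV : Matrix (Option (Fin q)) (Option (Fin q)) V :=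
    Matrix.of fun i j => ⟨b.repr (col j) i, hcoord _ (hcolm1 j) (hcolm2 j) i⟩
  set d : Option (Fin q) → K := fun o => o.elim 1 (fun _ => π) with hd
  have hM : Algebra.leftMulMatrix b t = V.subtype.mapMatrix AV * Matrix.diagonal d := by
    ext i j
    rw [Algebra.leftMulMatrix_eq_repr_mul, Matrix.mul_diagonal]
    cases j with
    | none =>
      rw [hbnone]
      show b.repr X i = b.repr X i * 1
      rw [mul_one]
    | some j =>
      rw [hcolsome, map_smul, Finsupp.smul_apply, smul_eq_mul, mul_comm]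
      rfl
  have hnorm : Algebra.norm K t = π ^ q * ((AV.det : V) : K) := by
    rw [Algebra.norm_eq_matrix_det b, hM, Matrix.det_mul, Matrix.det_diagonal, ← RingHom.map_det,
      Fintype.prod_option, hd]
    simp only [Option.elim, Finset.prod_const, Finset.card_univ, Fintype.card_fin]
    rw [one_mul, mul_comm]
    rfl
  -- the reductions of the columns
  have hc2 : ∀ j : Option (Fin q), O₂.valuation (col j -
      ∑ i : Fin q, algebraMap K L ((AV (some i) j : V) : K) * y ^ (i : ℕ)) < 1 := by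
    intro j
    have e' := eq_comb_repr b hb (col j)
    have h := val_comb_sub_lt_one h₂ hθ2' hy'2 hy hyy (fun i => b.repr (col j) (some i))
      (fun i => hcoord _ (hcolm1 j) (hcolm2 j) (some i)) (hcoord _ (hcolm1 j) (hcolm2 j) none)
    rw [← e'] at h
    exact h
  have hc1 : ∀ j : Option (Fin q),
      O₁.valuation (col j - algebraMap K L ((AV none j : V) : K)) < 1 := by
    intro j
    have e' := eq_comb_repr b hb (col j)
    have h := val_comb_sub_le h₁ (θ := θ) hy'1 (fun i => b.repr (col j) (some i))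
      (fun i => hcoord _ (hcolm1 j) (hcolm2 j) (some i)) (hcoord _ (hcolm1 j) (hcolm2 j) none)
    rw [← e'] at h
    exact lt_of_le_of_lt h hθ1'
  have c1 : ∀ i : Fin q, AV (some i) none ∈ IsLocalRing.maximalIdeal V := by
    have hs : ∑ i : Fin q, algebraMap K L ((AV (some i) none : V) : K) * y ^ (i : ℕ) ∈
        O₂.nonunits := by
      rw [ValuationSubring.mem_nonunits_iff]
      have e' : ∑ i : Fin q, algebraMap K L ((AV (some i) none : V) : K) * y ^ (i : ℕ) =
          X - (X - ∑ i : Fin q, algebraMap K L ((AV (some i) none : V) : K) * y ^ (i : ℕ)) := by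
        ring
      rw [e']
      exact Valuation.map_sub_lt _ (val_mul_lt_one O₂ ((O₂.valuation_le_one_iff _).2 htm2) he2)
        (hc2 none)
    have hY := coeff_mem_nonunits_of_sum_mem h₂ hq hqV hy hv hyv hyn
      (fun i => ((AV (some i) none : V) : K)) (fun i => (AV (some i) none).2) hs
    exact fun i => ValuationSubring.coe_mem_nonunits_iff.1 (hY i)
  have c2 : AV none none - 1 ∈ IsLocalRing.maximalIdeal V := by
    rw [← ValuationSubring.coe_mem_nonunits_iff, ← algebraMap_val_lt_one_iff h₁]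
    have e' : algebraMap K L ((AV none none - 1 : V) : K) =
        (t * (e - 1) + (t - 1)) - (X - algebraMap K L ((AV none none : V) : K)) := by
      have e2 : ((AV none none - 1 : V) : K) = ((AV none none : V) : K) - 1 := rfl
      rw [e2, map_sub, map_one, hX]
      ring
    rw [e']
    exact Valuation.map_sub_lt _ (Valuation.map_add_lt _
      (val_mul_lt_one O₁ ((O₁.valuation_le_one_iff _).2 htm1) he1) ht1) (hc1 none)
  have c4 : ∀ i j : Fin q, AV (some i) (some j) - (if i = j then 1 else 0) ∈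
      IsLocalRing.maximalIdeal V := by
    intro i j
    have hZy : O₂.valuation (Z j - y ^ (j : ℕ)) < 1 := by
      have e' : Z j - y ^ (j : ℕ) =
          (z - e * θ - 1) * y' ^ (j : ℕ) * e + (y' ^ (j : ℕ) - y ^ (j : ℕ)) := by
        rw [hZ, he]
        ring
      rw [e']
      refine Valuation.map_add_lt _ (val_mul_lt_one O₂ ((O₂.valuation_le_one_iff _).2 ?_) he2)
        (val_pow_sub_pow_lt_one O₂ hy'2 hy hyy _)
      exact mul_mem (sub_mem (sub_mem hzm2 (mul_mem hem2 hθm2)) O₂.one_mem) (pow_mem hy'2 _)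
    have hcV : ∀ k : Fin q, ((AV (some k) (some j) : V) : K) - (if k = j then 1 else 0) ∈ V :=
      fun k => sub_mem (AV (some k) (some j)).2 (by split_ifs; exacts [V.one_mem, V.zero_mem])
    have hs : ∑ k : Fin q, algebraMap K L (((AV (some k) (some j) : V) : K) -
        (if k = j then 1 else 0)) * y ^ (k : ℕ) ∈ O₂.nonunits := by
      rw [ValuationSubring.mem_nonunits_iff]
      have e' : ∑ k : Fin q, algebraMap K L (((AV (some k) (some j) : V) : K) -
          (if k = j then 1 else 0)) * y ^ (k : ℕ) = (Z j - y ^ (j : ℕ)) - (Z j -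
            ∑ k : Fin q, algebraMap K L ((AV (some k) (some j) : V) : K) * y ^ (k : ℕ)) := by
        have e2 : ∑ k : Fin q, algebraMap K L (if k = j then (1 : K) else 0) * y ^ (k : ℕ) =
            y ^ (j : ℕ) := by
          rw [Finset.sum_eq_single j]
          · rw [if_pos rfl, map_one, one_mul]
          · intro k _ hkj
            rw [if_neg hkj, map_zero, zero_mul]
          · intro h
            exact absurd (Finset.mem_univ j) h
        simp only [map_sub, sub_mul, Finset.sum_sub_distrib]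
        rw [e2]
        ring
      rw [e']
      exact Valuation.map_sub_lt _ hZy (hc2 (some j))
    have hY := coeff_mem_nonunits_of_sum_mem h₂ hq hqV hy hv hyv hyn
      (fun k => ((AV (some k) (some j) : V) : K) - (if k = j then 1 else 0)) hcV hs i
    rw [← ValuationSubring.coe_mem_nonunits_iff]
    have e3 : ((AV (some i) (some j) - (if i = j then 1 else 0) : V) : K) =
        ((AV (some i) (some j) : V) : K) - (if i = j then 1 else 0) := by
      split_ifs <;> rfl
    rw [e3]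
    exact hY
  have hdet := det_sub_one_mem AV c1 c2 c4
  refine ⟨((AV.det : V) : K), (AV.det).2, ?_, hnorm⟩
  rw [← ValuationSubring.coe_mem_nonunits_iff] at hdet
  exact hdet

end Shift

section Statements

/-- The special element in the two-extension setting (hypotheses as in
`Fermat.Agent.S34.H64.TwoExtStatement`): `t ≡ 1 (mod m₁)`, `t / π ≡ 1 (mod m₂)`,
`N(t) = π ^ q · δ` with `δ ≡ 1 (mod m_V)`. -/
theorem exists_shift (K : Type u) (L : Type v) [Field K] [Field L] [Algebra K L]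
    [FiniteDimensional K L] (V : ValuationSubring K) (q : ℕ)
    (hq : q.Prime) (hqV : (q : K) ∈ V.nonunits) (hfin : Module.finrank K L = q + 1)
    (O₁ O₂ : ValuationSubring L) (h₁ : O₁.comap (algebraMap K L) = V)
    (h₂ : O₂.comap (algebraMap K L) = V) (hne : O₁ ≠ O₂) (y : L) (hy : y ∈ O₂)
    (hyq : ∃ v ∈ V, y ^ q - algebraMap K L v ∈ O₂.nonunits)
    (hyn : ∀ v ∈ V, y - algebraMap K L v ∉ O₂.nonunits)
    (π : K) (hπ0 : π ≠ 0) (hπV : π ∈ V.nonunits) (hπ : ∀ a ∈ V.nonunits, a / π ∈ V) :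
    ∃ t : L, O₁.valuation (t - 1) < 1 ∧ O₂.valuation (t / algebraMap K L π - 1) < 1 ∧
      ∃ δ ∈ V, δ - 1 ∈ V.nonunits ∧ Algebra.norm K t = π ^ q * δ := by
  obtain ⟨v, hv, hyv⟩ := hyq
  obtain ⟨θ, y', b, hθ1, hθ2, hy'1, hy'2, hyy, hb, hcoord⟩ :=
    exists_basis h₁ h₂ hne hπ0 hπV hπ hq hqV hfin hy hv hyv hyn
  exact exists_shift_of_basis h₁ h₂ hq hqV hy hv hyv hyn hπ0 hπV hθ1 hθ2 hy'1 hy'2 hyy b hb hcoord

/-- **(N1-Z) The shifted norm formula** (hypotheses as in
`Fermat.Agent.S34.H64.TwoExtStatement`, `π` a uniformiser of `V`): for `u ∈ O₁` with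
`u / π ^ k ∈ O₂` (`k ∈ ℤ`), `u ≡ v₁ (mod m₁)` and `(u / π ^ k) ^ q ≡ v₂ (mod m₂)`, the element
`N_{L/K}(u) / π ^ (q k)` lies in `V` and is congruent to `v₁ * v₂` modulo the maximal ideal. -/
theorem normFormulaShift (K : Type u) (L : Type v) [Field K] [Field L] [Algebra K L]
    [FiniteDimensional K L] (V : ValuationSubring K) [IsDiscreteValuationRing V] (q : ℕ)
    (hq : q.Prime) (hqV : (q : K) ∈ V.nonunits) (hfin : Module.finrank K L = q + 1)
    (O₁ O₂ : ValuationSubring L) (h₁ : O₁.comap (algebraMap K L) = V)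
    (h₂ : O₂.comap (algebraMap K L) = V) (hne : O₁ ≠ O₂) (y : L) (hy : y ∈ O₂)
    (hyq : ∃ v ∈ V, y ^ q - algebraMap K L v ∈ O₂.nonunits)
    (hyn : ∀ v ∈ V, y - algebraMap K L v ∉ O₂.nonunits)
    (π : K) (hπ0 : π ≠ 0) (hπV : π ∈ V.nonunits) (hπ : ∀ a ∈ V.nonunits, a / π ∈ V)
    (u : L) (k : ℤ) (hu₁ : u ∈ O₁) (hu₂ : u / algebraMap K L π ^ k ∈ O₂)
    (v₁ v₂ : K) (hv₁ : v₁ ∈ V) (hv₂ : v₂ ∈ V)
    (h1 : u - algebraMap K L v₁ ∈ O₁.nonunits)
    (h2 : (u / algebraMap K L π ^ k) ^ q - algebraMap K L v₂ ∈ O₂.nonunits) :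
    Algebra.norm K u / π ^ ((q : ℤ) * k) ∈ V ∧
      Algebra.norm K u / π ^ ((q : ℤ) * k) - v₁ * v₂ ∈ V.nonunits := by
  obtain ⟨t, ht1, ht2, δ, hδV, hδ1, hNt⟩ :=
    exists_shift K L V q hq hqV hfin O₁ O₂ h₁ h₂ hne y hy hyq hyn π hπ0 hπV hπ
  rw [ValuationSubring.mem_nonunits_iff] at h1 h2 hδ1
  set P := algebraMap K L π with hP
  have hP0 : P ≠ 0 := (_root_.map_ne_zero _).2 hπ0
  have ht0 : t ≠ 0 := ne_zero_of_sub_one O₁ ht1
  have htk0 : t ^ k ≠ 0 := zpow_ne_zero k ht0
  have hPk0 : P ^ k ≠ 0 := zpow_ne_zero k hP0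
  -- `u' = u / t ^ k` has the same residues
  have e1 : u / t ^ k = u * t ^ (-k) := by
    rw [zpow_neg, div_eq_mul_inv]
  have e2 : u / t ^ k = u / P ^ k * (t / P) ^ (-k) := by
    rw [zpow_neg, div_zpow]
    field_simp
  have hu'1 : u / t ^ k ∈ O₁ := by
    rw [e1]
    exact mul_mem hu₁ (mem_of_sub_one O₁ (val_zpow_sub_one_lt_one O₁ ht1 (-k)))
  have hu'2 : u / t ^ k ∈ O₂ := by
    rw [e2]
    exact mul_mem hu₂ (mem_of_sub_one O₂ (val_zpow_sub_one_lt_one O₂ ht2 (-k)))
  have hr1 : O₁.valuation (u / t ^ k - algebraMap K L v₁) < 1 := by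
    have e : u / t ^ k - algebraMap K L v₁ =
        u * (t ^ (-k) - 1) + (u - algebraMap K L v₁) := by
      rw [e1]
      ring
    rw [e]
    exact Valuation.map_add_lt _ (val_mul_lt_one O₁ ((O₁.valuation_le_one_iff _).2 hu₁)
      (val_zpow_sub_one_lt_one O₁ ht1 (-k))) h1
  have hr2 : O₂.valuation ((u / t ^ k) ^ q - algebraMap K L v₂) < 1 := by
    have hc : O₂.valuation (((t / P) ^ (-k)) ^ q - 1) < 1 := by
      have h := val_zpow_sub_one_lt_one O₂ (val_zpow_sub_one_lt_one O₂ ht2 (-k)) (q : ℤ)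
      rwa [zpow_natCast] at h
    have e : (u / t ^ k) ^ q - algebraMap K L v₂ =
        (u / P ^ k) ^ q * (((t / P) ^ (-k)) ^ q - 1) +
          ((u / P ^ k) ^ q - algebraMap K L v₂) := by
      rw [e2]
      ring
    rw [e]
    exact Valuation.map_add_lt _ (val_mul_lt_one O₂
      ((O₂.valuation_le_one_iff _).2 (pow_mem hu₂ q)) hc) h2
  obtain ⟨hN, hN'⟩ := normFormula K L V q hq hqV hfin O₁ O₂ h₁ h₂ hne y hy hyq hyn (u / t ^ k)
    hu'1 hu'2 v₁ v₂ hv₁ hv₂ ((ValuationSubring.mem_nonunits_iff O₁).2 hr1)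
    ((ValuationSubring.mem_nonunits_iff O₂).2 hr2)
  rw [ValuationSubring.mem_nonunits_iff] at hN'
  -- the norm identity
  have hδ0 : δ ≠ 0 := ne_zero_of_sub_one V hδ1
  have hπk0 : π ^ ((q : ℤ) * k) ≠ 0 := zpow_ne_zero _ hπ0
  have hnorm : Algebra.norm K u / π ^ ((q : ℤ) * k) = Algebra.norm K (u / t ^ k) * δ ^ k := by
    have hu : u = u / t ^ k * t ^ k := (div_mul_cancel₀ u htk0).symm
    have hNtk : Algebra.norm K (t ^ k) = π ^ ((q : ℤ) * k) * δ ^ k := by
      rw [norm_zpow ht0, hNt, mul_zpow, ← zpow_natCast π q, ← zpow_mul]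
    conv_lhs => rw [hu, map_mul, hNtk]
    field_simp
  rw [hnorm]
  have hδk : V.valuation (δ ^ k - 1) < 1 := val_zpow_sub_one_lt_one V hδ1 k
  have hδkV : δ ^ k ∈ V := mem_of_sub_one V hδk
  refine ⟨V.mul_mem _ _ hN hδkV, ?_⟩
  rw [ValuationSubring.mem_nonunits_iff]
  have e : Algebra.norm K (u / t ^ k) * δ ^ k - v₁ * v₂ =
      δ ^ k * (Algebra.norm K (u / t ^ k) - v₁ * v₂) + v₁ * v₂ * (δ ^ k - 1) := by
    ring
  rw [e]
  exact Valuation.map_add_lt _ (val_mul_lt_one V ((V.valuation_le_one_iff _).2 hδkV) hN')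
    (val_mul_lt_one V ((V.valuation_le_one_iff _).2 (V.mul_mem _ _ hv₁ hv₂)) hδk)

/-- (N1-Z) with the membership hypotheses in valuation form. -/
theorem normFormulaShift' (K : Type u) (L : Type v) [Field K] [Field L] [Algebra K L]
    [FiniteDimensional K L] (V : ValuationSubring K) [IsDiscreteValuationRing V] (q : ℕ)
    (hq : q.Prime) (hqV : (q : K) ∈ V.nonunits) (hfin : Module.finrank K L = q + 1)
    (O₁ O₂ : ValuationSubring L) (h₁ : O₁.comap (algebraMap K L) = V)
    (h₂ : O₂.comap (algebraMap K L) = V) (hne : O₁ ≠ O₂) (y : L) (hy : y ∈ O₂)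
    (hyq : ∃ v ∈ V, y ^ q - algebraMap K L v ∈ O₂.nonunits)
    (hyn : ∀ v ∈ V, y - algebraMap K L v ∉ O₂.nonunits)
    (π : K) (hπ0 : π ≠ 0) (hπV : π ∈ V.nonunits) (hπ : ∀ a ∈ V.nonunits, a / π ∈ V)
    (u : L) (k : ℤ) (hu₁ : O₁.valuation u = 1)
    (hu₂ : O₂.valuation (u / algebraMap K L π ^ k) = 1)
    (v₁ v₂ : K) (hv₁ : v₁ ∈ V) (hv₂ : v₂ ∈ V)
    (h1 : u - algebraMap K L v₁ ∈ O₁.nonunits)
    (h2 : (u / algebraMap K L π ^ k) ^ q - algebraMap K L v₂ ∈ O₂.nonunits) :
    Algebra.norm K u / π ^ ((q : ℤ) * k) - v₁ * v₂ ∈ V.nonunits :=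
  (normFormulaShift K L V q hq hqV hfin O₁ O₂ h₁ h₂ hne y hy hyq hyn π hπ0 hπV hπ u k
    ((O₁.valuation_le_one_iff _).1 hu₁.le) ((O₂.valuation_le_one_iff _).1 hu₂.le) v₁ v₂ hv₁ hv₂
    h1 h2).2

/-- (N1-Z), existential form: residues exist and satisfy the shifted norm formula. -/
theorem exists_norm_residues_shift (K : Type u) (L : Type v) [Field K] [Field L] [Algebra K L]
    [FiniteDimensional K L] (V : ValuationSubring K) [IsDiscreteValuationRing V] (q : ℕ)
    (hq : q.Prime) (hqV : (q : K) ∈ V.nonunits) (hfin : Module.finrank K L = q + 1)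
    (O₁ O₂ : ValuationSubring L) (h₁ : O₁.comap (algebraMap K L) = V)
    (h₂ : O₂.comap (algebraMap K L) = V) (hne : O₁ ≠ O₂) (y : L) (hy : y ∈ O₂)
    (hyq : ∃ v ∈ V, y ^ q - algebraMap K L v ∈ O₂.nonunits)
    (hyn : ∀ v ∈ V, y - algebraMap K L v ∉ O₂.nonunits)
    (π : K) (hπ0 : π ≠ 0) (hπV : π ∈ V.nonunits) (hπ : ∀ a ∈ V.nonunits, a / π ∈ V)
    (u : L) (k : ℤ) (hu₁ : u ∈ O₁) (hu₂ : u / algebraMap K L π ^ k ∈ O₂) :
    ∃ v₁ ∈ V, ∃ v₂ ∈ V, u - algebraMap K L v₁ ∈ O₁.nonunits ∧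
      (u / algebraMap K L π ^ k) ^ q - algebraMap K L v₂ ∈ O₂.nonunits ∧
      Algebra.norm K u / π ^ ((q : ℤ) * k) ∈ V ∧
      Algebra.norm K u / π ^ ((q : ℤ) * k) - v₁ * v₂ ∈ V.nonunits := by
  obtain ⟨v, hv, hyv⟩ := id hyq
  obtain ⟨-, -, -, hres1, hres2⟩ :=
    twoExt_of_uniformizer hq hqV hfin h₁ h₂ hne hy hv hyv hyn hπ0 hπV hπ
  obtain ⟨v₁, hv₁, h1⟩ := hres1 u hu₁
  obtain ⟨c, hc, huc⟩ := hres2 _ hu₂
  have hv₂ : ∑ i : Fin q, c i ^ q * v ^ (i : ℕ) ∈ V :=
    sum_mem fun i _ => mul_mem (pow_mem (hc i) _) (pow_mem hv _)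
  have h2 := pow_sub_mem_nonunits h₂ hq hqV hy hv hyv hu₂ c hc huc
  obtain ⟨hN, hN'⟩ := normFormulaShift K L V q hq hqV hfin O₁ O₂ h₁ h₂ hne y hy hyq hyn π hπ0
    hπV hπ u k hu₁ hu₂ v₁ _ hv₁ hv₂ h1 h2
  exact ⟨v₁, hv₁, _, hv₂, h1, h2, hN, hN'⟩

end Statements

end Fermat.Agent.S35.H57
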